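/-
Cluster B (helper66): Theorem A and the descent of S28 with the witnesses EXPOSED
(`n = Fintype.card (Q N)`, `φ = unitPhi N`, `u = thmA_formalU N`).
The proofs are those of `Fermat.Agent.S28.thmA_of_inputs` (helper78), `thmA` (helper78) and
`descent_main` (helper94), with the existential witnesses `n, φ, u` turned into parameters.
-/
import Fermat.Agent.S28.ThmA
import Fermat.Agent.S28.DescentMain
import Fermat.Agent.S28.DescentD3
import Fermat.Agent.Lib.GaussVal.Modular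

set_option autoImplicit false

namespace Fermat.Agent.GaussVal

open UpperHalfPlane ModularForm MatrixGroups EisensteinSeries Polynomial SlashInvariantForm
open Fermat.Agent.S23 ModularCurve
open Fermat.Agent.S28 Fermat.Agent.S28.QExp

noncomputable section

/-- `ThmAStatement` with the witnesses `n, φ, u` as parameters. -/
def ThmAFor (N n φ : ℕ) (u : LaurentSeries ℚ) : Prop :=
  ∃ (χ : Polynomial (Polynomial ℂ)) (c₀ : ℂ) (a b : ℕ),
    0 < φ ∧ IsMonicUnitSeries u (((φ * (n - 1) : ℕ) : ℤ)) ∧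
    χ.Monic ∧ χ.natDegree = n ∧
    (∀ i, i < n → (χ.coeff i).natDegree + φ * i ≤ φ * n) ∧
    χ.eval₂ (evJ (toC ModularCurve.jq)) (toC u) = 0 ∧
    χ.coeff 0 = C c₀ ∧ 0 < a ∧ 0 < b ∧ (∀ p : ℕ, p.Prime → p ∣ a * b → p ∣ N) ∧
    ‖c₀‖ * (b : ℝ) = (a : ℝ) ∧
    ∀ (d : ℕ) (_ : NeZero d), d ∣ N → ∃ A : Polynomial (Polynomial ℂ),
      toC (ModularCurve.qExpand ℚ d ModularCurve.jq) *
          (derivative χ).eval₂ (evJ (toC ModularCurve.jq)) (toC u) =
        A.eval₂ (evJ (toC ModularCurve.jq)) (toC u)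

theorem ThmAFor.thmAStatement {N n φ : ℕ} {u : LaurentSeries ℚ} (h : ThmAFor N n φ u) :
    ThmAStatement N := by
  obtain ⟨χ, c₀, a, b, h⟩ := h
  exact ⟨n, φ, u, χ, c₀, a, b, h⟩

theorem thmA_of_inputs_for (N : ℕ) [NeZero N] (φ : ℕ) (hφ : 0 < φ)
    (W : ModularForm (G0 N) (12 * (φ : ℤ)))
    (u : LaurentSeries ℚ)
    (hu : IsMonicUnitSeries u (((φ * (Fintype.card (Q N) - 1) : ℕ) : ℤ)))
    (hWu : HasQ (fun τ => W τ / discriminant τ ^ φ) (toC u))
    (hmain : ∃ C : ℂ, IsNUnit N ‖C‖ ∧ ∀ τ : ℍ,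
      ∏ q : Q N, quotientFunc W q τ = C * discriminant τ ^ (φ * Fintype.card (Q N)))
    (hvd : ∀ d : ℕ, d ∣ N → ∃ v : ModularForm (G0 N) (12 * (d : ℤ)), ∀ τ : ℍ,
      v τ = E₄ (heckeDiagMatrix d • τ) ^ 3 * discriminant τ ^ d /
        discriminant (heckeDiagMatrix d • τ)) :
    ThmAFor N (Fintype.card (Q N)) φ u := by
  classical
  set n := Fintype.card (Q N) with hn
  obtain ⟨χ, hmonic, hdeg, hbound, hconst, hroot, hcert⟩ :=
    wp11_exists_charPoly_certificate_all N φ W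
  obtain ⟨C, hC, hnorm⟩ := hmain
  obtain ⟨a, b, ha, hb, hpa, hpb, hab⟩ := hC
  have hJ := thmA_hasQ_wp4J
  -- the constant term
  have hc0 : ∀ τ : ℍ, (χ.coeff 0).eval (wp4J τ) = (-1) ^ n * C := by
    intro τ
    rw [hconst τ, Finset.prod_div_distrib, hnorm τ, Finset.prod_const, Finset.card_univ,
      ← pow_mul, ← hn, mul_div_assoc, div_self (pow_ne_zero _ (discriminant_ne_zero τ)),
      mul_one]
  have hcoeff0 : χ.coeff 0 = Polynomial.C ((-1) ^ n * C) := by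
    have h1 := thmA_hasQ_evJ hJ (χ.coeff 0 - Polynomial.C ((-1) ^ n * C))
    have h2 := h1.eq_zero fun τ => by
      rw [eval_sub, eval_C, hc0 τ, sub_self]
    have h3 := evJ_injective (toC jq) thmA_ordV_toC_jq (h2.trans (map_zero _).symm)
    exact sub_eq_zero.mp h3
  refine ⟨χ, (-1) ^ n * C, a, b, hφ, hu, hmonic, hdeg, hbound, ?_, hcoeff0, ha, hb,
    ?_, ?_, ?_⟩
  · -- the root
    exact (thmA_hasQ_biv hJ hWu χ).eq_zero hroot
  · intro p hp hpab
    rcases (Nat.Prime.dvd_mul hp).mp hpab with h | h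
    exacts [hpa p hp h, hpb p hp h]
  · rw [norm_mul, norm_pow, norm_neg, norm_one, one_pow, one_mul, hab]
    have hb0 : (b : ℝ) ≠ 0 := by positivity
    field_simp
  · -- the certificates
    intro d hd0 hdN
    obtain ⟨v, hv⟩ := hvd d hdN
    obtain ⟨A, hA⟩ := hcert d v
    refine ⟨A, ?_⟩
    have hL := (thmA_hasQ_jd d).mul (thmA_hasQ_biv hJ hWu (derivative χ))
    have hR := thmA_hasQ_biv hJ hWu A
    refine hL.eq_of_eq hR fun τ => ?_
    rw [Pi.mul_apply, ← hA τ]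
    congr 1
    rw [hv τ, wp4J]
    have h1 := discriminant_ne_zero τ
    have h2 := discriminant_ne_zero (heckeDiagMatrix d • τ)
    field_simp

theorem thmA_for (N : ℕ) [NeZero N] :
    ThmAFor N (Fintype.card (Q N)) (unitPhi N) (thmA_formalU N) := by
  have hN : N ≠ 0 := NeZero.ne N
  obtain ⟨hE, hmain⟩ := @unit_main N _ (instFintypeQ (N := N))
  refine thmA_of_inputs_for N (unitPhi N) (unitPhi_pos N) (wN N) (thmA_formalU N) ?_ ?_ hmain
    (fun d hd => exists_vd N d hd)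
  · have h := isMonicUnitSeries_formalU N hN
    have hn : 0 < Fintype.card (Q N) := card_Q_pos
    have e : unitE N - (unitPhi N : ℤ) = ((unitPhi N * (Fintype.card (Q N) - 1) : ℕ) : ℤ) := by
      rw [hE, Nat.cast_mul, Nat.cast_sub hn]
      push_cast
      ring
    rwa [e] at h
  · rw [thmA_formalU, thmA_toC_formalQuot]
    exact thmA_hasQ_unit (unitSet N) (unitM N)
      (fun δ hδ => wp3b_ne_zero_of_mem_unitSet hN hδ) (unitPhi N) (coe_wN N)

theorem descent_main_for (N ℓ : ℕ) [NeZero N] [Fact ℓ.Prime] (hℓN : ¬ ℓ ∣ N) {n φ : ℕ}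
    {u : LaurentSeries ℚ} (h : ThmAFor N n φ u) :
    ∃ (χQ : Polynomial (Polynomial ℚ)),
      0 < φ ∧ IsMonicUnitSeries u (((φ * (n - 1) : ℕ) : ℤ)) ∧
      χQ.Monic ∧ χQ.natDegree = n ∧
      (∀ i, i < n → (χQ.coeff i).natDegree + φ * i ≤ φ * n) ∧
      (∀ i k, (χQ.coeff i).coeff k ∈ GaloisRep.ratLocalizedAt ℓ) ∧
      χQ.eval₂ (evJ ModularCurve.jq) u = 0 ∧
      ∀ (d : ℕ) (_ : NeZero d), d ∣ N → ∃ A : Polynomial (Polynomial ℚ),
        ModularCurve.qExpand ℚ d ModularCurve.jq *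
            (Polynomial.derivative χQ).eval₂ (evJ ModularCurve.jq) u
          = A.eval₂ (evJ ModularCurve.jq) u := by
  obtain ⟨χ, c₀, a, b, hφ, hu, hχm, hχd, hχc, hχu, hχ0, ha, hb, hab, hnorm, hA⟩ := h
  have hℓ : ℓ.Prime := Fact.out
  obtain ⟨E, hE1, huE⟩ := hu
  have huE' : u = muSeries ℚ (((φ * (n - 1) : ℕ) : ℤ)) E := huE
  have hu0 : u ≠ 0 := by rw [huE']; exact muSeries_ne_zero _ hE1
  have huord : ordV ℚ u = ((((φ * (n - 1) : ℕ) : ℤ)) : WithTop ℤ) := by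
    rw [huE']; exact ordV_muSeries _ hE1
  -- D1
  have hχu' : pev2 (coeffEmb ℂ jq) (coeffEmb ℂ u) χ = 0 := by
    rw [pev2_eq_eval₂_evJ]; exact hχu
  obtain ⟨χQ, hmap, hQm, hQd, hQc, hQu⟩ :=
    chi_rational jq u ordV_jq hu0 hφ (le_of_eq huord.symm) χ hχm hχd hχc hχu'
  -- the constant term
  have hcoeff : ∀ i k, algebraMap ℚ ℂ ((χQ.coeff i).coeff k) = (χ.coeff i).coeff k := by
    intro i k
    rw [← hmap, coeff_map, coe_mapRingHom, coeff_map]
  set q₀ : ℚ := (χQ.coeff 0).coeff 0 with hq₀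
  have hq0 : χQ.coeff 0 = C q₀ := by
    ext k
    rcases Nat.eq_zero_or_pos k with rfl | hk
    · rw [coeff_C_zero]
    · rw [coeff_C, if_neg hk.ne']
      apply (algebraMap ℚ ℂ).injective
      rw [hcoeff, hχ0, coeff_C, if_neg hk.ne', map_zero]
  have hc : ((q₀ : ℚ) : ℂ) = c₀ := by
    have := hcoeff 0 0
    rw [hχ0, coeff_C_zero] at this
    exact this
  have hnu : IsNUnit N ((|q₀| : ℚ) : ℝ) := by
    refine ⟨a, b, ha, hb, fun p hp hpa => hab p hp (hpa.mul_right b),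
      fun p hp hpb => hab p hp (hpb.mul_left a), ?_⟩
    have hb0 : (b : ℝ) ≠ 0 := by positivity
    rw [eq_div_iff hb0, ← hnorm, ← hc]
    congr 1
    rw [Rat.cast_abs]
    exact (Complex.norm_ratCast q₀).symm
  have hq₀mem : q₀ ∈ GaloisRep.ratLocalizedAt ℓ :=
    mem_ratLocalizedAt_of_padicValRat_eq_zero hℓ (hnu.padicValRat_eq_zero hℓ hℓN)
  -- D2
  set jR : LaurentSeries ↥(GaloisRep.ratLocalizedAt ℓ) := muSeries _ (-1) jNum with hjR
  set uR : LaurentSeries ↥(GaloisRep.ratLocalizedAt ℓ) :=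
    muSeries _ (((φ * (n - 1) : ℕ) : ℤ)) E with huR
  have hjRQ : coeffMap (GaloisRep.ratLocalizedAt ℓ).subtype jR = jq := by
    rw [hjR, coeffMap_muSeries, jq_eq_muSeries]
  have huRQ : coeffMap (GaloisRep.ratLocalizedAt ℓ).subtype uR = u := by
    rw [huR, coeffMap_muSeries, huE']
  obtain ⟨χR, hRmap, -⟩ := exists_chi_integral ℓ hφ jR uR
    (by rw [hjR, coeffMap_muSeries]; exact ordV_muSeries (-1) constantCoeff_jNum)
    (by rw [huR, coeffMap_muSeries]; exact ordV_muSeries _ hE1)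
    χQ hQm hQd hQc ⟨q₀, hq₀mem⟩ hq0 (by rw [hjRQ, huRQ]; exact hQu)
  refine ⟨χQ, hφ, ⟨E, hE1, huE⟩, hQm, hQd, hQc, ?_, ?_, ?_⟩
  · intro i k
    rw [← hRmap, coeff_map, coe_mapRingHom, coeff_map]
    exact Subtype.property _
  · rw [← pev2_eq_eval₂_evJ]; exact hQu
  · intro d hd hdN
    obtain ⟨A, hA'⟩ := hA d hd hdN
    obtain ⟨r, hr⟩ := exists_retraction ℂ
    refine ⟨polyRet2 r A, ?_⟩
    have key := retract_relation_mul (L := ℂ) jq u (qExpand ℚ d jq) r (derivative χ) A (by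
      rw [pev2_eq_eval₂_evJ, pev2_eq_eval₂_evJ]; exact hA')
    rw [← hmap, derivative_map, polyRet2_map r hr] at key
    rw [← pev2_eq_eval₂_evJ, ← pev2_eq_eval₂_evJ]
    exact key

end

end Fermat.Agent.GaussVal

namespace Fermat.Agent.GaussVal

open Polynomial ModularCurve Fermat.Agent.S23 Fermat.Agent.S28

noncomputable section

variable {L : Type*} [Field L] [Algebra ℚ L]

/-- unit series with the same image over `ℚ` have the same integral power series -/
theorem unitSeries_injective {a a' : ℤ} {E E' : PowerSeries ℤ}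
    (hE : PowerSeries.constantCoeff E = 1) (hE' : PowerSeries.constantCoeff E' = 1)
    (h : unitSeries ℚ a E = unitSeries ℚ a' E') : a = a' ∧ E = E' := by
  have ha : a = a' := by
    have h1 := ordV_unitSeries (k := ℚ) a E hE
    have h2 := ordV_unitSeries (k := ℚ) a' E' hE'
    rw [h, h2] at h1
    exact_mod_cast h1.symm
  subst ha
  refine ⟨rfl, ?_⟩
  ext m
  have h3 := congrArg (fun x : LaurentSeries ℚ => x.coeff (a + m)) h
  simp only [unitSeries, HahnSeries.coeff_single_mul, one_mul, add_sub_cancel_left,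
    HahnSeries.ofPowerSeries_apply_coeff, PowerSeries.coeff_map] at h3
  exact Int.cast_injective (α := ℚ) (by simpa using h3)

/-- **(G7, explicit)** the modular Gauss data with `n = #Q(N)` and `u = thmA_formalU N`. -/
theorem exists_modData_explicit (A : ValuationSubring L) (ℓ : ℕ) [Fact ℓ.Prime] (N : ℕ) [NeZero N]
    (hA : (ℓ : L) ∈ A.nonunits) (hℓN : ¬ ℓ ∣ N) :
    ∃ D : ModData A N, D.n = Fintype.card (Q N) ∧
      thmA_formalU N = unitSeries ℚ D.a D.E ∧
      D.a = (((unitPhi N * (Fintype.card (Q N) - 1) : ℕ) : ℤ)) := by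
  obtain ⟨χQ, hφ, hu, hχm, hχd, hχc, hχint, hχu, hAd⟩ := descent_main_for N ℓ hℓN (thmA_for N)
  have hD3 := modularFunctionFieldFull_le_adjoin' N hφ (thmA_formalU N) hu χQ hχm hχd hχc hχu hAd
  obtain ⟨E, hE, hu_eq⟩ := hu
  obtain ⟨D, hn, ha, hDE⟩ := exists_modData_of_descent A ℓ N hA hφ (thmA_formalU N) E hE hu_eq
    χQ hχm hχd hχc hχint hχu hD3
  refine ⟨D, hn, ?_, ha⟩
  rw [ha, hDE]; exact hu_eq

end

end Fermat.Agent.GaussVal
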