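import Mathlib
import Fermat.Agent.Lib.GaussVal.Explicit
import Fermat.Agent.Lib.GaussInt.Basic

/-!
# Gauss valuation (cluster B): the residue field of the modular Gauss valuation  (R3)

`L` a field of characteristic `0`, `A` a valuation subring of `L`, `k` its residue field,
`D : ModData A N` (exists when `A` lies over `ℓ ∤ N`), `F_L = laurentBaseChange L (modularFunctionFieldFull N)`,
`F_k = modularFunctionFieldFullC k N`.

* `ModData.red_mem_adjoin` : the reduction of an integral series of `F_L` lies in `k(j̄, ū)`;
* `ModData.fullC_le_adjoin` : `F_k ⊆ k(j̄, ū)`;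
* `ModData.red_mem_fullC`   : **(R3a)** if `ū ∈ F_k`, the reduction of an integral series of `F_L` lies in `F_k`;
* `ModData.gaussResFun_mem_fullC` : **(R3a)** in the shape of `Lib/GaussInt`;
* `exists_gaussResFun_eq` : **(R3b)** every element of `F_k` is a residue (no hypothesis).
-/

set_option autoImplicit false

namespace Fermat.Agent.GaussVal

open Polynomial ModularCurve Fermat.Agent.S28 IntermediateField

noncomputable section

variable {L : Type*} [Field L] [Algebra ℚ L]

namespace ModData

variable {A : ValuationSubring L} {N : ℕ} (D : ModData A N)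

/-- the Gauss ring attached to the data -/
abbrev OvD : Subring (LaurentSeries L) :=
  Ov A.subtype (IsLocalRing.residue A) (jqModC A) (D.u A)

/-- the reduction map attached to the data -/
def rhoD : ↥D.OvD →+* LaurentSeries (IsLocalRing.ResidueField A) :=
  rho A.subtype (IsLocalRing.residue A) (jqModC A) (D.u A) Subtype.val_injective D.hinj

theorem mem_OvD_of_integral (Y : LaurentSeries A)
    (hY : coeffMap A.subtype Y ∈ laurentBaseChange L (modularFunctionFieldFull N)) :
    coeffMap A.subtype Y ∈ D.OvD :=
  coeffMap_mem_Ov (vTriple_valuationSubring A) D.χ D.monic D.natDegree_eq D.hn D.root' D.hind'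
    D.hinj Y (D.inTL_of_mem hY)

theorem rhoD_integral (Y : LaurentSeries A)
    (hY : coeffMap A.subtype Y ∈ laurentBaseChange L (modularFunctionFieldFull N)) :
    D.rhoD ⟨_, D.mem_OvD_of_integral Y hY⟩ = coeffMap (IsLocalRing.residue A) Y :=
  rho_coeffMap Subtype.val_injective D.hinj Y (D.mem_OvD_of_integral Y hY)

/-- the reduction of an integral series of `F_L` has a rational representation in `j̄, ū` -/
theorem red_inTL (Y : LaurentSeries A)
    (hY : coeffMap A.subtype Y ∈ laurentBaseChange L (modularFunctionFieldFull N)) :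
    InTL (jqModC (IsLocalRing.ResidueField A)) (D.u (IsLocalRing.ResidueField A))
      (coeffMap (IsLocalRing.residue A) Y) := by
  have h := (rho_mem_range_iff (vTriple_valuationSubring A) IsLocalRing.residue_surjective D.hinj
    (coeffMap (IsLocalRing.residue A) Y)).mp ⟨⟨_, D.mem_OvD_of_integral Y hY⟩, D.rhoD_integral Y hY⟩
  rwa [coeffMap_jqModC, D.red_uA] at h

include D in
theorem hinjk : Function.Injective (pev1 (jqModC (IsLocalRing.ResidueField A))) := by
  have := D.hinj
  rwa [coeffMap_jqModC] at this

/-- the reduction of an integral series of `F_L` lies in `k(j̄, ū)` -/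
theorem red_mem_adjoin (Y : LaurentSeries A)
    (hY : coeffMap A.subtype Y ∈ laurentBaseChange L (modularFunctionFieldFull N)) :
    coeffMap (IsLocalRing.residue A) Y ∈
      adjoin (IsLocalRing.ResidueField A)
        ({jqModC (IsLocalRing.ResidueField A), D.u (IsLocalRing.ResidueField A)} :
          Set (LaurentSeries (IsLocalRing.ResidueField A))) :=
  mem_adjoin_of_inTL D.hinjk (D.red_inTL Y hY)

omit [Algebra ℚ L] in
theorem coeffMap_qExpand_jA (f : A →+* L) (d : ℕ) [NeZero d] :
    coeffMap f (qExpand A d (jqModC A)) = qExpand L d (jqModC L) := by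
  rw [coeffMap_qExpand, coeffMap_jqModC]

/-- `j(q^d)` over `L` lies in `F_L`. -/
theorem qExpand_jq_mem_bar {d : ℕ} [NeZero d] (hd : d ∣ N) :
    qExpand L d (jqModC L) ∈ laurentBaseChange L (modularFunctionFieldFull N) := by
  have h := coeffEmb_mem_laurentBaseChange L (jqd_mem_full N hd)
  have e : coeffEmb L (qExpand ℚ d jq) = qExpand L d (jqModC L) := by
    show coeffMap (algebraMap ℚ L) (qExpand ℚ d jq) = _
    rw [coeffMap_qExpand, ← jqModC_rat, coeffMap_jqModC]
  rwa [e] at h

/-- `F_k ⊆ k(j̄, ū)`. -/
theorem fullC_le_adjoin :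
    modularFunctionFieldFullC (IsLocalRing.ResidueField A) N ≤
      adjoin (IsLocalRing.ResidueField A)
        ({jqModC (IsLocalRing.ResidueField A), D.u (IsLocalRing.ResidueField A)} :
          Set (LaurentSeries (IsLocalRing.ResidueField A))) := by
  rw [modularFunctionFieldFullC, adjoin_le_iff]
  rintro x ⟨d, hne, hdvd, rfl⟩
  have := hne
  have hY : coeffMap A.subtype (qExpand A d (jqModC A)) ∈
      laurentBaseChange L (modularFunctionFieldFull N) := by
    rw [coeffMap_qExpand, coeffMap_jqModC]; exact qExpand_jq_mem_bar hdvd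
  have h := D.red_mem_adjoin _ hY
  rwa [coeffMap_qExpand, coeffMap_jqModC] at h

/-- if `ū ∈ F_k` then `k(j̄, ū) = F_k`. -/
theorem adjoin_eq_fullC
    (hub : D.u (IsLocalRing.ResidueField A) ∈
      modularFunctionFieldFullC (IsLocalRing.ResidueField A) N) :
    adjoin (IsLocalRing.ResidueField A)
        ({jqModC (IsLocalRing.ResidueField A), D.u (IsLocalRing.ResidueField A)} :
          Set (LaurentSeries (IsLocalRing.ResidueField A))) =
      modularFunctionFieldFullC (IsLocalRing.ResidueField A) N := by
  refine le_antisymm ?_ D.fullC_le_adjoin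
  rw [adjoin_le_iff]
  rintro x (rfl | hx)
  · exact jqModC_mem_full _ N
  · rw [Set.mem_singleton_iff] at hx; rw [hx]; exact hub

/-- **(R3a)** if `ū ∈ F_k`, the reduction of an integral series of `F_L` lies in `F_k`. -/
theorem red_mem_fullC
    (hub : D.u (IsLocalRing.ResidueField A) ∈
      modularFunctionFieldFullC (IsLocalRing.ResidueField A) N)
    (Y : LaurentSeries A)
    (hY : coeffMap A.subtype Y ∈ laurentBaseChange L (modularFunctionFieldFull N)) :
    coeffMap (IsLocalRing.residue A) Y ∈
      modularFunctionFieldFullC (IsLocalRing.ResidueField A) N := by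
  rw [← D.adjoin_eq_fullC hub]; exact D.red_mem_adjoin Y hY

/-- **(R3a)** in the shape of `Lib/GaussInt`: residues of the Gauss ring of `F_L` lie in `F_k`. -/
theorem gaussResFun_mem_fullC
    (hub : D.u (IsLocalRing.ResidueField A) ∈
      modularFunctionFieldFullC (IsLocalRing.ResidueField A) N)
    {f : LaurentSeries L}
    (hf : f ∈ GaussInt.gaussSub A (laurentBaseChange L (modularFunctionFieldFull N))) :
    GaussInt.gaussResFun A (laurentBaseChange L (modularFunctionFieldFull N)) f ∈
      modularFunctionFieldFullC (IsLocalRing.ResidueField A) N := by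
  obtain ⟨Y₁, Y₂, h⟩ := hf
  rw [GaussInt.gaussResFun_eq h]
  exact div_mem (D.red_mem_fullC hub Y₁ h.mem₁) (D.red_mem_fullC hub Y₂ h.mem₂)

end ModData

section Surj

variable (A : ValuationSubring L) (N : ℕ)

omit [Algebra ℚ L] in
/-- additivity of the residue function on the Gauss ring -/
theorem gaussResFun_add' (F : IntermediateField L (LaurentSeries L)) {f g : LaurentSeries L}
    (hf : f ∈ GaussInt.gaussSub A F) (hg : g ∈ GaussInt.gaussSub A F) :
    GaussInt.gaussResFun A F (f + g) = GaussInt.gaussResFun A F f + GaussInt.gaussResFun A F g := by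
  have h := map_add (GaussInt.gaussRes A F) ⟨f, hf⟩ ⟨g, hg⟩
  rw [GaussInt.gaussRes_apply, GaussInt.gaussRes_apply, GaussInt.gaussRes_apply] at h
  exact h

omit [Algebra ℚ L] in
/-- multiplicativity of the residue function on the Gauss ring -/
theorem gaussResFun_mul' (F : IntermediateField L (LaurentSeries L)) {f g : LaurentSeries L}
    (hf : f ∈ GaussInt.gaussSub A F) (hg : g ∈ GaussInt.gaussSub A F) :
    GaussInt.gaussResFun A F (f * g) = GaussInt.gaussResFun A F f * GaussInt.gaussResFun A F g := by
  have h := map_mul (GaussInt.gaussRes A F) ⟨f, hf⟩ ⟨g, hg⟩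
  rw [GaussInt.gaussRes_apply, GaussInt.gaussRes_apply, GaussInt.gaussRes_apply] at h
  exact h

/-- **(R3b)** every element of `F_k` is the residue of an element of the Gauss ring of `F_L`. -/
theorem exists_gaussResFun_eq {z : LaurentSeries (IsLocalRing.ResidueField A)}
    (hz : z ∈ modularFunctionFieldFullC (IsLocalRing.ResidueField A) N) :
    ∃ f ∈ GaussInt.gaussSub A (laurentBaseChange L (modularFunctionFieldFull N)),
      GaussInt.gaussResFun A (laurentBaseChange L (modularFunctionFieldFull N)) f = z := by
  rw [modularFunctionFieldFullC] at hz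
  induction hz using IntermediateField.adjoin_induction with
  | mem x hx =>
    obtain ⟨d, hne, hdvd, rfl⟩ := hx
    have := hne
    have hY : GaussInt.emb A (qExpand A d (jqModC A)) ∈
        laurentBaseChange L (modularFunctionFieldFull N) := by
      show coeffMap A.subtype (qExpand A d (jqModC A)) ∈ _
      rw [coeffMap_qExpand, coeffMap_jqModC]; exact ModData.qExpand_jq_mem_bar hdvd
    refine ⟨_, GaussInt.emb_mem_gaussSub hY, ?_⟩
    rw [GaussInt.gaussResFun_emb hY]
    show coeffMap (IsLocalRing.residue A) (qExpand A d (jqModC A)) = _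
    rw [coeffMap_qExpand, coeffMap_jqModC]
  | algebraMap c =>
    obtain ⟨a, rfl⟩ := IsLocalRing.residue_surjective c
    exact ⟨_, GaussInt.algebraMap_mem_gaussSub a.2, GaussInt.gaussResFun_algebraMap a.2⟩
  | add x y _ _ hx hy =>
    obtain ⟨f, hf, rfl⟩ := hx
    obtain ⟨g, hg, rfl⟩ := hy
    exact ⟨f + g, Subring.add_mem _ hf hg, gaussResFun_add' A _ hf hg⟩
  | mul x y _ _ hx hy =>
    obtain ⟨f, hf, rfl⟩ := hx
    obtain ⟨g, hg, rfl⟩ := hy
    exact ⟨f * g, Subring.mul_mem _ hf hg, gaussResFun_mul' A _ hf hg⟩
  | inv x _ hx =>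
    obtain ⟨f, hf, rfl⟩ := hx
    by_cases h0 : GaussInt.gaussResFun A (laurentBaseChange L (modularFunctionFieldFull N)) f = 0
    · refine ⟨0, Subring.zero_mem _, ?_⟩
      rw [h0, inv_zero]
      exact map_zero (GaussInt.gaussRes A (laurentBaseChange L (modularFunctionFieldFull N)))
    · exact ⟨f⁻¹, GaussInt.inv_mem_gaussSub hf h0, GaussInt.gaussResFun_inv hf h0⟩

end Surj

end

end Fermat.Agent.GaussVal
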