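/-
Cluster B (helper66), `Lib/GaussVal`, final file of (R3):

for a valuation ring `A` of a field `L ⊇ ℚ` over a prime `ℓ ∤ N` with perfect residue field `k`
(automatic when `L` is algebraically closed) the residue map of the Gauss ring of
`F_L = L · ℚ(j(q^d) : d ∣ N)` has image EXACTLY `F_k = k(j(q^d) : d ∣ N)`:

* `gaussResFun_mem_fullC_final`  (R3a)  residues lie in `F_k`;
* `exists_gaussResFun_eq`        (R3b)  (in `ResField.lean`) every element of `F_k` is a residue;
* `range_gaussRes_eq`            both, as an equality of sets;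
* `adjoin_jbar_ubar_eq_fullC`    `k(j̄, ū) = F_k` for the reduction `ū` of the canonical unit;
* `exists_modData_full`          the explicit modular Gauss data together with `ū ∈ F_k`.

Versions `..._of_isAlgClosed` for `L` algebraically closed (e.g. `AlgebraicClosure ℚ`) with
`A.LiesOverPrime ℓ` are at the end.
-/
import Mathlib
import Fermat.Agent.Lib.GaussVal.ResField
import Fermat.Agent.Lib.IgusaDeg.UBar
import Fermat.Agent.Lib.FrobTrace.Residue

set_option autoImplicit false

namespace Fermat.Agent.GaussVal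

open UpperHalfPlane ModularForm MatrixGroups EisensteinSeries Polynomial SlashInvariantForm
open Fermat.Agent.S23 ModularCurve
open Fermat.Agent.S28 Fermat.Agent.S28.QExp IntermediateField

noncomputable section

variable {L : Type*} [Field L] [Algebra ℚ L]

section General

variable (A : ValuationSubring L) (ℓ : ℕ) [Fact ℓ.Prime] (N : ℕ)

omit [Algebra ℚ L] in
/-- `N` is invertible in the residue field of a valuation ring over `ℓ ∤ N`. -/
theorem natCast_residue_ne_zero (hA : (ℓ : L) ∈ A.nonunits) (hℓN : ¬ ℓ ∣ N) :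
    ((N : ℕ) : IsLocalRing.ResidueField A) ≠ 0 := by
  have hcop : N.Coprime ℓ := ((Nat.Prime.coprime_iff_not_dvd Fact.out).mpr hℓN).symm
  have hu := natCast_isUnit_of_coprime A ℓ hA hcop
  have h := hu.map (IsLocalRing.residue A)
  rw [map_natCast] at h
  exact h.ne_zero

variable [NeZero N] [PerfectField (IsLocalRing.ResidueField A)]

/-- The explicit modular Gauss data, together with `ū ∈ F_k`. -/
theorem exists_modData_full (hA : (ℓ : L) ∈ A.nonunits) (hℓN : ¬ ℓ ∣ N) :
    ∃ D : ModData A N, D.n = Fintype.card (Q N) ∧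
      thmA_formalU N = unitSeries ℚ D.a D.E ∧
      D.a = (((unitPhi N * (Fintype.card (Q N) - 1) : ℕ) : ℤ)) ∧
      D.u (IsLocalRing.ResidueField A) ∈
        modularFunctionFieldFullC (IsLocalRing.ResidueField A) N := by
  obtain ⟨D, hn, hu, ha⟩ := exists_modData_explicit A ℓ N hA hℓN
  refine ⟨D, hn, hu, ha, ?_⟩
  exact Fermat.Agent.IgusaDeg.ubar_mem (IsLocalRing.ResidueField A) N
    (natCast_residue_ne_zero A ℓ N hA hℓN) D.a D.E hu

/-- **(R3a), unconditional**: residues of the Gauss ring of `F_L` lie in `F_k`. -/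
theorem gaussResFun_mem_fullC_final (hA : (ℓ : L) ∈ A.nonunits) (hℓN : ¬ ℓ ∣ N) :
    ∀ f ∈ GaussInt.gaussSub A (laurentBaseChange L (modularFunctionFieldFull N)),
      GaussInt.gaussResFun A (laurentBaseChange L (modularFunctionFieldFull N)) f ∈
        modularFunctionFieldFullC (IsLocalRing.ResidueField A) N := by
  obtain ⟨D, -, -, -, hub⟩ := exists_modData_full A ℓ N hA hℓN
  intro f hf
  exact D.gaussResFun_mem_fullC hub hf

/-- **(R3a)** for integral series: the reduction of an integral series of `F_L` lies in `F_k`. -/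
theorem coeffMap_residue_mem_fullC (hA : (ℓ : L) ∈ A.nonunits) (hℓN : ¬ ℓ ∣ N)
    (Y : LaurentSeries A)
    (hY : coeffMap A.subtype Y ∈ laurentBaseChange L (modularFunctionFieldFull N)) :
    coeffMap (IsLocalRing.residue A) Y ∈
      modularFunctionFieldFullC (IsLocalRing.ResidueField A) N := by
  obtain ⟨D, -, -, -, hub⟩ := exists_modData_full A ℓ N hA hℓN
  exact D.red_mem_fullC hub Y hY

/-- **(R3)**: the image of the residue map of the Gauss ring of `F_L` is exactly `F_k`. -/
theorem range_gaussRes_eq (hA : (ℓ : L) ∈ A.nonunits) (hℓN : ¬ ℓ ∣ N) :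
    Set.range (GaussInt.gaussRes A (laurentBaseChange L (modularFunctionFieldFull N))) =
      (modularFunctionFieldFullC (IsLocalRing.ResidueField A) N :
        Set (LaurentSeries (IsLocalRing.ResidueField A))) := by
  ext z
  constructor
  · rintro ⟨f, rfl⟩
    rw [GaussInt.gaussRes_apply]
    exact gaussResFun_mem_fullC_final A ℓ N hA hℓN _ f.2
  · intro hz
    obtain ⟨f, hf, rfl⟩ := exists_gaussResFun_eq A N hz
    exact ⟨⟨f, hf⟩, GaussInt.gaussRes_apply _⟩

/-- `k(j̄, ū) = F_k`: the residue function field is generated by the reductions of `j` and of the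
canonical unit. -/
theorem adjoin_jbar_ubar_eq_fullC (hA : (ℓ : L) ∈ A.nonunits) (hℓN : ¬ ℓ ∣ N) :
    ∃ (a : ℤ) (E : PowerSeries ℤ), thmA_formalU N = unitSeries ℚ a E ∧
      adjoin (IsLocalRing.ResidueField A)
        ({jqModC (IsLocalRing.ResidueField A), unitSeries (IsLocalRing.ResidueField A) a E} :
          Set (LaurentSeries (IsLocalRing.ResidueField A))) =
      modularFunctionFieldFullC (IsLocalRing.ResidueField A) N := by
  obtain ⟨D, -, hu, -, hub⟩ := exists_modData_full A ℓ N hA hℓN
  exact ⟨D.a, D.E, hu, D.adjoin_eq_fullC hub⟩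

end General

section AlgClosed

variable [IsAlgClosed L] (A : ValuationSubring L) (ℓ : ℕ) (N : ℕ) [NeZero N]

/-- **(R3a)** for `L` algebraically closed, in the shape of the hypothesis `hR3` of
`GaussInt.gaussValResTo`. -/
theorem gaussResFun_mem_fullC_of_isAlgClosed (hℓ : ℓ.Prime) (hA : A.LiesOverPrime ℓ)
    (hℓN : ¬ ℓ ∣ N) :
    ∀ f ∈ GaussInt.gaussSub A (laurentBaseChange L (modularFunctionFieldFull N)),
      GaussInt.gaussResFun A (laurentBaseChange L (modularFunctionFieldFull N)) f ∈
        modularFunctionFieldFullC (IsLocalRing.ResidueField A) N := by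
  have : Fact ℓ.Prime := ⟨hℓ⟩
  have : IsAlgClosed (IsLocalRing.ResidueField A) :=
    Fermat.Agent.FrobTrace.isAlgClosed_residueField A
  exact gaussResFun_mem_fullC_final A ℓ N hA hℓN

omit [IsAlgClosed L] [NeZero N] in
/-- **(R3b)** in the shape of the hypothesis `hsurj` of `GaussInt.gaussValResTo_surjective`. -/
theorem exists_gaussResFun_eq_of_mem :
    ∀ y ∈ modularFunctionFieldFullC (IsLocalRing.ResidueField A) N,
      ∃ f ∈ GaussInt.gaussSub A (laurentBaseChange L (modularFunctionFieldFull N)),
        GaussInt.gaussResFun A (laurentBaseChange L (modularFunctionFieldFull N)) f = y :=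
  fun _ hy => exists_gaussResFun_eq A N hy

/-- **(R3)** for `L` algebraically closed. -/
theorem range_gaussRes_eq_of_isAlgClosed (hℓ : ℓ.Prime) (hA : A.LiesOverPrime ℓ)
    (hℓN : ¬ ℓ ∣ N) :
    Set.range (GaussInt.gaussRes A (laurentBaseChange L (modularFunctionFieldFull N))) =
      (modularFunctionFieldFullC (IsLocalRing.ResidueField A) N :
        Set (LaurentSeries (IsLocalRing.ResidueField A))) := by
  have : Fact ℓ.Prime := ⟨hℓ⟩
  have : IsAlgClosed (IsLocalRing.ResidueField A) :=
    Fermat.Agent.FrobTrace.isAlgClosed_residueField A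
  exact range_gaussRes_eq A ℓ N hA hℓN

end AlgClosed

end

end Fermat.Agent.GaussVal
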