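import Mathlib
import Fermat.Agent.S28.Eval

/-!
# Gauss valuation (cluster B): valuation triples and the Gauss lemma

`VTriple ι r` : `ι : R → L` is (the inclusion of) a valuation ring of the field `L`, `r : R → k` a ring
homomorphism to a field whose kernel consists of the non-units of `R`.
`GTriple ι cQ cR i ρ` : Gauss-normalisation data for `i : SR → SQ`, `ρ : SR → Sk` with scalars from `L`.
It holds for `(L, R, k)` and is inherited by polynomial rings (Gauss' lemma, no discreteness needed).
-/

set_option autoImplicit false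

namespace Fermat.Agent.GaussVal

open Polynomial

noncomputable section

variable {L R k : Type*} [Field L] [CommRing R] [Field k]

/-- A valuation triple: `R ⊆ L` a valuation ring, `r : R → k` with kernel the non-units. -/
structure VTriple (ι : R →+* L) (r : R →+* k) : Prop where
  inj : Function.Injective ι
  total : ∀ x : L, x ≠ 0 → (∃ s, ι s = x) ∨ (∃ s, ι s = x⁻¹)
  unit : ∀ s : R, r s ≠ 0 → ∃ s', s * s' = 1

variable {ι : R →+* L} {r : R →+* k}

/-- In a finite nonempty family of nonzero elements of `L` one of them divides all the others. -/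
theorem VTriple.exists_min (h : VTriple ι r) {I : Type*} (s : Finset I) (hs : s.Nonempty)
    (x : I → L) (hx : ∀ i ∈ s, x i ≠ 0) :
    ∃ i₀ ∈ s, ∀ i ∈ s, ∃ a : R, ι a = x i / x i₀ := by
  classical
  induction hs using Finset.Nonempty.cons_induction with
  | singleton i =>
    refine ⟨i, Finset.mem_singleton_self i, fun i' hi' => ?_⟩
    rw [Finset.mem_singleton] at hi'
    subst hi'
    exact ⟨1, by rw [map_one, div_self (hx _ (Finset.mem_singleton_self _))]⟩
  | cons i s hi hs ih =>
    have hxs : ∀ i' ∈ s, x i' ≠ 0 := fun i' hi' => hx i' (Finset.mem_cons.mpr (Or.inr hi'))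
    have hxi : x i ≠ 0 := hx i (Finset.mem_cons_self i s)
    obtain ⟨i₁, hi₁, hmin⟩ := ih hxs
    have hxi₁ : x i₁ ≠ 0 := hxs i₁ hi₁
    rcases h.total (x i / x i₁) (div_ne_zero hxi hxi₁) with ⟨a, ha⟩ | ⟨a, ha⟩
    · refine ⟨i₁, Finset.mem_cons.mpr (Or.inr hi₁), fun i' hi' => ?_⟩
      rcases Finset.mem_cons.mp hi' with rfl | hi'
      · exact ⟨a, ha⟩
      · exact hmin i' hi'
    · refine ⟨i, Finset.mem_cons_self i s, fun i' hi' => ?_⟩
      rcases Finset.mem_cons.mp hi' with rfl | hi'
      · exact ⟨1, by rw [map_one, div_self hxi]⟩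
      · obtain ⟨b, hb⟩ := hmin i' hi'
        refine ⟨b * a, ?_⟩
        rw [map_mul, hb, ha, inv_div]
        field_simp

/-- Gauss-normalisation data: `i : SR → SQ` injective, and every nonzero `x : SQ` can be scaled by a
constant `c ∈ Lˣ` into `i(SR)` with nonzero reduction. -/
structure GTriple (ι : R →+* L) {SQ SR Sk : Type*} [CommRing SQ] [CommRing SR] [CommRing Sk]
    (cQ : L →+* SQ) (cR : R →+* SR) (i : SR →+* SQ) (ρ : SR →+* Sk) : Prop where
  inj : Function.Injective i
  comm : ∀ a, i (cR a) = cQ (ι a)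
  nrm : ∀ x : SQ, x ≠ 0 → ∃ (c : L) (s : SR), c ≠ 0 ∧ ρ s ≠ 0 ∧ cQ c * x = i s

theorem gTriple_base (h : VTriple ι r) : GTriple ι (RingHom.id L) (RingHom.id R) ι r where
  inj := h.inj
  comm := fun _ => rfl
  nrm := fun x hx => ⟨x⁻¹, 1, inv_ne_zero hx, by rw [map_one]; exact one_ne_zero, by
    rw [RingHom.id_apply, inv_mul_cancel₀ hx, map_one]⟩

section General

variable {SQ SR Sk : Type*} [CommRing SQ] [CommRing SR] [CommRing Sk]
  {cQ : L →+* SQ} {cR : R →+* SR} {i : SR →+* SQ} {ρ : SR →+* Sk}

/-- The kernel of the reduction is generated by the constants of the maximal ideal. -/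
theorem GTriple.ker (hv : VTriple ι r) (h : GTriple ι cQ cR i ρ) (s : SR) (hs : ρ s = 0) :
    ∃ (b : R) (s' : SR), r b = 0 ∧ s = cR b * s' := by
  by_cases hs0 : s = 0
  · exact ⟨0, 0, map_zero r, by rw [hs0, mul_zero]⟩
  have his : i s ≠ 0 := fun h0 => hs0 (h.inj (by rw [h0, map_zero]))
  obtain ⟨c, s', hc, hs', heq⟩ := h.nrm (i s) his
  have hcase1 : ∀ a : R, ι a = c → False := by
    intro a ha
    have h1 : i (cR a * s) = i s' := by rw [map_mul, h.comm, ha, heq]
    have h2 := h.inj h1
    apply hs'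
    rw [← h2, map_mul, hs, mul_zero]
  rcases hv.total c hc with ⟨a, ha⟩ | ⟨b, hb⟩
  · exact (hcase1 a ha).elim
  · refine ⟨b, s', ?_, ?_⟩
    · by_contra hrb
      obtain ⟨b', hb'⟩ := hv.unit b hrb
      apply hcase1 b'
      have h1 : ι b * ι b' = 1 := by rw [← map_mul, hb', map_one]
      rw [hb] at h1
      have := congrArg (fun t => c * t) h1
      simp only [mul_one] at this
      rw [← mul_assoc, mul_inv_cancel₀ hc, one_mul] at this
      exact this
    · apply h.inj
      rw [map_mul, h.comm, hb, ← heq, ← mul_assoc, ← map_mul, inv_mul_cancel₀ hc, map_one, one_mul]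

/-- Gauss triples are inherited by polynomial rings (Gauss' lemma). -/
theorem GTriple.polynomial (hv : VTriple ι r) (h : GTriple ι cQ cR i ρ) :
    GTriple ι ((C : SQ →+* SQ[X]).comp cQ) ((C : SR →+* SR[X]).comp cR)
      (mapRingHom i) (mapRingHom ρ) where
  inj := Polynomial.map_injective i h.inj
  comm := fun a => by
    simp only [RingHom.comp_apply, coe_mapRingHom, Polynomial.map_C, h.comm]
  nrm := by
    classical
    intro P hP
    have hex : ∀ n, P.coeff n ≠ 0 → ∃ (c : L) (s : SR), c ≠ 0 ∧ ρ s ≠ 0 ∧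
        cQ c * P.coeff n = i s := fun n hn => h.nrm _ hn
    choose! c s hc using hex
    have hne : P.support.Nonempty := by
      rw [Finset.nonempty_iff_ne_empty, Ne, support_eq_empty]; exact hP
    have hcne : ∀ n ∈ P.support, (c n)⁻¹ ≠ 0 := fun n hn =>
      inv_ne_zero (hc n (mem_support_iff.mp hn)).1
    obtain ⟨n₀, hn₀, hmin⟩ := hv.exists_min P.support hne (fun n => (c n)⁻¹) hcne
    choose! a ha using hmin
    have hc₀ := (hc n₀ (mem_support_iff.mp hn₀)).1
    refine ⟨c n₀, ∑ n ∈ P.support, monomial n (cR (a n) * s n), hc₀, ?_, ?_⟩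
    · intro hzero
      have := congrArg (fun Q => Polynomial.coeff Q n₀) hzero
      simp only [coe_mapRingHom, coeff_map, finsetSum_coeff, coeff_monomial, coeff_zero] at this
      rw [Finset.sum_ite_eq' P.support n₀, if_pos hn₀] at this
      have ha₀ : a n₀ = 1 := by
        apply hv.inj
        rw [ha n₀ hn₀, div_self (inv_ne_zero hc₀), map_one]
      have hρ1 : ρ (cR 1) = 1 := by rw [map_one, map_one]
      rw [ha₀, map_mul, hρ1, one_mul] at this
      exact (hc n₀ (mem_support_iff.mp hn₀)).2.1 this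
    · ext m
      rw [RingHom.comp_apply, coeff_C_mul, coe_mapRingHom, coeff_map, finsetSum_coeff]
      simp only [coeff_monomial]
      rw [Finset.sum_ite_eq' P.support m]
      by_cases hm : m ∈ P.support
      · rw [if_pos hm, map_mul, h.comm, ha m hm, ← (hc m (mem_support_iff.mp hm)).2.2,
          ← mul_assoc, ← map_mul]
        congr 2
        have hcm := (hc m (mem_support_iff.mp hm)).1
        field_simp
      · rw [if_neg hm, map_zero, notMem_support_iff.mp hm, mul_zero]

end General

section Instances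

variable (hv : VTriple ι r)
include hv

theorem gTriple_poly1 :
    GTriple ι (C : L →+* L[X]) (C : R →+* R[X]) (mapRingHom ι) (mapRingHom r) := by
  have := (gTriple_base hv).polynomial hv
  simpa using this

theorem gTriple_poly2 :
    GTriple ι ((C : L[X] →+* L[X][X]).comp (C : L →+* L[X]))
      ((C : R[X] →+* R[X][X]).comp (C : R →+* R[X]))
      (mapRingHom (mapRingHom ι)) (mapRingHom (mapRingHom r)) :=
  (gTriple_poly1 hv).polynomial hv

/-- normalisation of a nonzero polynomial in one variable -/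
theorem VTriple.nrm1 (g : L[X]) (hg : g ≠ 0) :
    ∃ (c : L) (g₀ : R[X]), c ≠ 0 ∧ g₀.map r ≠ 0 ∧ C c * g = g₀.map ι :=
  (gTriple_poly1 hv).nrm g hg

/-- normalisation of a nonzero polynomial in two variables -/
theorem VTriple.nrm2 (P : L[X][X]) (hP : P ≠ 0) :
    ∃ (c : L) (P₀ : R[X][X]), c ≠ 0 ∧ P₀.map (mapRingHom r) ≠ 0 ∧
      C (C c) * P = P₀.map (mapRingHom ι) :=
  (gTriple_poly2 hv).nrm P hP

/-- kernel of the reduction of polynomials in two variables -/
theorem VTriple.ker2 (P : R[X][X]) (hP : P.map (mapRingHom r) = 0) :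
    ∃ (b : R) (P' : R[X][X]), r b = 0 ∧ P = C (C b) * P' :=
  (gTriple_poly2 hv).ker hv P hP

/-- kernel of the reduction of polynomials in one variable -/
theorem VTriple.ker1 (g : R[X]) (hg : g.map r = 0) :
    ∃ (b : R) (g' : R[X]), r b = 0 ∧ g = C b * g' :=
  (gTriple_poly1 hv).ker hv g hg

end Instances

/-- The valuation triple of a valuation subring. -/
theorem vTriple_valuationSubring (A : ValuationSubring L) :
    VTriple (R := A) (k := IsLocalRing.ResidueField A) A.subtype (IsLocalRing.residue A) where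
  inj := Subtype.val_injective
  total := fun x _ => by
    rcases A.mem_or_inv_mem x with h | h
    · exact Or.inl ⟨⟨x, h⟩, rfl⟩
    · exact Or.inr ⟨⟨x⁻¹, h⟩, rfl⟩
  unit := fun s hs => by
    have hu : IsUnit s := by
      by_contra hnu
      exact hs ((IsLocalRing.residue_eq_zero_iff s).mpr ((IsLocalRing.mem_maximalIdeal s).mpr hnu))
    obtain ⟨u, rfl⟩ := hu
    exact ⟨↑u⁻¹, by simp⟩

end

end Fermat.Agent.GaussVal
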