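import Mathlib
import Fermat.Agent.S28.RedKernel
import Fermat.Agent.Lib.GaussVal.Triple

/-!
# Gauss valuation (cluster B): the ring `O_v` and its reduction map `ρ`

Setting: a valuation triple `ι : R → L`, `r : R → k`, and `jR uR : R((q))`.
`Ov ⊂ L((q))` is the set of `x` with `x · g(j) = P(j,u)` for some `g ∈ R[Y]`, `ḡ ≠ 0`, `P ∈ R[Y][X]`.
The reduction `ρ : Ov → k((q))`, `x ↦ P̄(j̄,ū) / ḡ(j̄)`, is a ring homomorphism.
(Port of `Fermat.Agent.S28.RedRing` from `Z_(ℓ) ⊂ ℚ` to an arbitrary valuation ring.)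
-/

set_option autoImplicit false

namespace Fermat.Agent.GaussVal

open Polynomial ModularCurve Fermat.Agent.S28

noncomputable section

variable {L R k : Type*} [Field L] [CommRing R] [Field k]
variable (ι : R →+* L) (r : R →+* k)
variable (jR uR : LaurentSeries R)

/-- Membership in `O_v`. -/
def InOv (x : LaurentSeries L) : Prop :=
  ∃ g : R[X], g.map r ≠ 0 ∧
    ∃ P : R[X][X], x * coeffMap ι (pev1 jR g) = coeffMap ι (pev2 jR uR P)

theorem inOv_of_eq {x : LaurentSeries L} (P : R[X][X])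
    (h : x = coeffMap ι (pev2 jR uR P)) : InOv ι r jR uR x :=
  ⟨1, by rw [Polynomial.map_one]; exact one_ne_zero, P, by rw [map_one, map_one, mul_one, h]⟩

theorem inOv_add {x y : LaurentSeries L} (hx : InOv ι r jR uR x) (hy : InOv ι r jR uR y) :
    InOv ι r jR uR (x + y) := by
  obtain ⟨g, hg, P, hP⟩ := hx
  obtain ⟨g', hg', P', hP'⟩ := hy
  refine ⟨g * g', ?_, P * C g' + P' * C g, ?_⟩
  · rw [Polynomial.map_mul]; exact mul_ne_zero hg hg'
  · simp only [map_add, map_mul, pev2_C]
    rw [← hP, ← hP']; ring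

theorem inOv_mul {x y : LaurentSeries L} (hx : InOv ι r jR uR x) (hy : InOv ι r jR uR y) :
    InOv ι r jR uR (x * y) := by
  obtain ⟨g, hg, P, hP⟩ := hx
  obtain ⟨g', hg', P', hP'⟩ := hy
  refine ⟨g * g', ?_, P * P', ?_⟩
  · rw [Polynomial.map_mul]; exact mul_ne_zero hg hg'
  · simp only [map_mul]
    rw [← hP, ← hP']; ring

theorem inOv_neg {x : LaurentSeries L} (hx : InOv ι r jR uR x) : InOv ι r jR uR (-x) := by
  obtain ⟨g, hg, P, hP⟩ := hx
  refine ⟨g, hg, -P, ?_⟩
  rw [map_neg, map_neg, ← hP, neg_mul]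

/-- The ring `O_v` (Gauss valuation ring, as a subring of `L((q))`). -/
def Ov : Subring (LaurentSeries L) where
  carrier := {x | InOv ι r jR uR x}
  mul_mem' := fun hx hy => inOv_mul ι r jR uR hx hy
  one_mem' := inOv_of_eq ι r jR uR 1 (by rw [map_one, map_one])
  add_mem' := fun hx hy => inOv_add ι r jR uR hx hy
  zero_mem' := inOv_of_eq ι r jR uR 0 (by rw [map_zero, map_zero])
  neg_mem' := fun hx => inOv_neg ι r jR uR hx

theorem mem_Ov_iff {x : LaurentSeries L} : x ∈ Ov ι r jR uR ↔ InOv ι r jR uR x := Iff.rfl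

theorem coeffMap_pev2_mem (P : R[X][X]) : coeffMap ι (pev2 jR uR P) ∈ Ov ι r jR uR :=
  inOv_of_eq ι r jR uR P rfl

/-- raw reduction function -/
def rhoFun (x : ↥(Ov ι r jR uR)) : LaurentSeries k :=
  coeffMap r (pev2 jR uR ((mem_Ov_iff ι r jR uR).mp x.2).choose_spec.2.choose) /
    coeffMap r (pev1 jR ((mem_Ov_iff ι r jR uR).mp x.2).choose)

variable {ι r jR uR}

/-- **kernel of reduction** on `R[j,u]`: generated by constants of the maximal ideal. -/
theorem reduction_kernel' (hv : VTriple ι r) {n : ℕ}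
    (χR : R[X][X]) (hχm : χR.Monic) (hχd : χR.natDegree = n) (hn : 0 < n)
    (hχu : pev2 jR uR χR = 0)
    (hind : IndepUpTo (coeffMap r jR) (coeffMap r uR) n)
    (P : R[X][X]) (hP : coeffMap r (pev2 jR uR P) = 0) :
    ∃ (b : R) (P' : R[X][X]), r b = 0 ∧
      pev2 jR uR P = HahnSeries.C b * pev2 jR uR P' := by
  have hχ1 : χR ≠ 1 := by
    intro h
    rw [h, natDegree_one] at hχd
    omega
  set P₀ := P %ₘ χR with hP₀
  have hdiv : P₀ + χR * (P /ₘ χR) = P := modByMonic_add_div P χR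
  have hev : pev2 jR uR P = pev2 jR uR P₀ := by
    conv_lhs => rw [← hdiv]
    rw [map_add, map_mul, hχu, zero_mul, add_zero]
  have hdeg : P₀.natDegree < n := by
    rw [← hχd]; exact natDegree_modByMonic_lt P hχm hχ1
  have hred : P₀.map (mapRingHom r) = 0 := by
    apply hind
    · exact lt_of_le_of_lt natDegree_map_le hdeg
    · rw [← coeffMap_pev2, ← hev, hP]
  obtain ⟨b, P', hb, hP'⟩ := hv.ker2 P₀ hred
  refine ⟨b, P', hb, ?_⟩
  rw [hev, hP', map_mul, pev2_C, pev1_C]

theorem red_pev1_ne_zero (hinj : Function.Injective (pev1 (coeffMap r jR)))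
    {g : R[X]} (hg : g.map r ≠ 0) : coeffMap r (pev1 jR g) ≠ 0 := by
  rw [coeffMap_pev1]
  intro h
  exact hg (hinj (by rw [h, map_zero]))

theorem rhoFun_eq (hι : Function.Injective ι) (hinj : Function.Injective (pev1 (coeffMap r jR)))
    (x : ↥(Ov ι r jR uR)) {g : R[X]} (hg : g.map r ≠ 0) {P : R[X][X]}
    (h : (x : LaurentSeries L) * coeffMap ι (pev1 jR g) = coeffMap ι (pev2 jR uR P)) :
    rhoFun ι r jR uR x = coeffMap r (pev2 jR uR P) / coeffMap r (pev1 jR g) := by
  have hx := (mem_Ov_iff ι r jR uR).mp x.2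
  have hg₀ := hx.choose_spec.1
  have h₀ := hx.choose_spec.2.choose_spec
  have hcross : pev2 jR uR hx.choose_spec.2.choose * pev1 jR g =
      pev2 jR uR P * pev1 jR hx.choose := by
    apply coeffMap_injective hι
    rw [map_mul, map_mul, ← h₀, ← h]; ring
  have hcross' := congrArg (coeffMap r) hcross
  rw [map_mul, map_mul] at hcross'
  show coeffMap r (pev2 jR uR hx.choose_spec.2.choose) / coeffMap r (pev1 jR hx.choose) = _
  rw [div_eq_div_iff (red_pev1_ne_zero hinj hg₀) (red_pev1_ne_zero hinj hg)]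
  exact hcross'

variable (ι r jR uR)

/-- The reduction map `ρ : O_v → k((q))`. -/
def rho (hι : Function.Injective ι) (hinj : Function.Injective (pev1 (coeffMap r jR))) :
    ↥(Ov ι r jR uR) →+* LaurentSeries k where
  toFun x := rhoFun ι r jR uR x
  map_one' := by
    have h : ((1 : ↥(Ov ι r jR uR)) : LaurentSeries L) * coeffMap ι (pev1 jR 1) =
        coeffMap ι (pev2 jR uR 1) := by
      simp only [map_one, mul_one, Subring.coe_one]
    have h1 : ((1 : R[X]).map r) ≠ 0 := by
      rw [Polynomial.map_one]; exact one_ne_zero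
    rw [rhoFun_eq hι hinj _ h1 h]
    simp only [map_one, div_one]
  map_zero' := by
    have h : ((0 : ↥(Ov ι r jR uR)) : LaurentSeries L) * coeffMap ι (pev1 jR 1) =
        coeffMap ι (pev2 jR uR 0) := by
      simp only [map_zero, zero_mul, Subring.coe_zero]
    have h1 : ((1 : R[X]).map r) ≠ 0 := by
      rw [Polynomial.map_one]; exact one_ne_zero
    rw [rhoFun_eq hι hinj _ h1 h]
    simp only [map_zero, zero_div]
  map_mul' := by
    intro x y
    obtain ⟨g, hg, P, hP⟩ := (mem_Ov_iff ι r jR uR).mp x.2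
    obtain ⟨g', hg', P', hP'⟩ := (mem_Ov_iff ι r jR uR).mp y.2
    have hgg : (g * g').map r ≠ 0 := by
      rw [Polynomial.map_mul]; exact mul_ne_zero hg hg'
    have hmul : ((x * y : ↥(Ov ι r jR uR)) : LaurentSeries L) * coeffMap ι (pev1 jR (g * g')) =
        coeffMap ι (pev2 jR uR (P * P')) := by
      simp only [map_mul, Subring.coe_mul]
      rw [← hP, ← hP']; ring
    rw [rhoFun_eq hι hinj _ hgg hmul, rhoFun_eq hι hinj x hg hP, rhoFun_eq hι hinj y hg' hP']
    simp only [map_mul]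
    rw [div_mul_div_comm]
  map_add' := by
    intro x y
    obtain ⟨g, hg, P, hP⟩ := (mem_Ov_iff ι r jR uR).mp x.2
    obtain ⟨g', hg', P', hP'⟩ := (mem_Ov_iff ι r jR uR).mp y.2
    have hgg : (g * g').map r ≠ 0 := by
      rw [Polynomial.map_mul]; exact mul_ne_zero hg hg'
    have hadd : ((x + y : ↥(Ov ι r jR uR)) : LaurentSeries L) * coeffMap ι (pev1 jR (g * g')) =
        coeffMap ι (pev2 jR uR (P * C g' + P' * C g)) := by
      simp only [map_add, map_mul, pev2_C, Subring.coe_add]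
      rw [← hP, ← hP']; ring
    rw [rhoFun_eq hι hinj _ hgg hadd, rhoFun_eq hι hinj x hg hP, rhoFun_eq hι hinj y hg' hP']
    simp only [map_add, map_mul, pev2_C]
    rw [div_add_div _ _ (red_pev1_ne_zero hinj hg) (red_pev1_ne_zero hinj hg')]
    congr 1
    ring

variable {ι r jR uR}

theorem rho_eq (hι : Function.Injective ι) (hinj : Function.Injective (pev1 (coeffMap r jR)))
    (x : ↥(Ov ι r jR uR)) {g : R[X]} (hg : g.map r ≠ 0) {P : R[X][X]}
    (h : (x : LaurentSeries L) * coeffMap ι (pev1 jR g) = coeffMap ι (pev2 jR uR P)) :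
    rho ι r jR uR hι hinj x = coeffMap r (pev2 jR uR P) / coeffMap r (pev1 jR g) :=
  rhoFun_eq hι hinj x hg h

theorem rho_coeffMap_pev2 (hι : Function.Injective ι)
    (hinj : Function.Injective (pev1 (coeffMap r jR))) (P : R[X][X]) :
    rho ι r jR uR hι hinj ⟨coeffMap ι (pev2 jR uR P), coeffMap_pev2_mem ι r jR uR P⟩ =
      coeffMap r (pev2 jR uR P) := by
  have h1 : ((1 : R[X]).map r) ≠ 0 := by
    rw [Polynomial.map_one]; exact one_ne_zero
  rw [rho_eq hι hinj _ h1 (P := P) (by simp only [map_one, mul_one])]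
  simp only [map_one, div_one]

/-- On elements of `O_v` with coefficients in `R`, `ρ` is the coefficientwise reduction. -/
theorem rho_coeffMap (hι : Function.Injective ι)
    (hinj : Function.Injective (pev1 (coeffMap r jR))) (y : LaurentSeries R)
    (hy : coeffMap ι y ∈ Ov ι r jR uR) :
    rho ι r jR uR hι hinj ⟨coeffMap ι y, hy⟩ = coeffMap r y := by
  obtain ⟨g, hg, P, hP⟩ := (mem_Ov_iff ι r jR uR).mp hy
  rw [rho_eq hι hinj ⟨_, hy⟩ hg hP, div_eq_iff (red_pev1_ne_zero hinj hg)]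
  have h1 : y * pev1 jR g = pev2 jR uR P := by
    apply coeffMap_injective hι
    rw [map_mul]; exact hP
  rw [← h1, map_mul]

end

end Fermat.Agent.GaussVal
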