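import Mathlib
import Fermat.Agent.S28.DescentD3
import Fermat.Agent.Lib.GaussVal.Ring

/-!
# Gauss valuation (cluster B): the field `L(j)[u]` inside `L((q))`

`InTL j u x` : `x · g(j) = P(j,u)` for some `g ≠ 0`.  If `j` is transcendental and `u` is a root of a
monic polynomial over `L[j]`, these `x` form the field `L(j,u)`.
(Port of `Fermat.Agent.S28.DescentD3` part (T) from `ℚ` to an arbitrary field `L`.)
-/

set_option autoImplicit false

namespace Fermat.Agent.GaussVal

open Polynomial ModularCurve Fermat.Agent.S28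

noncomputable section

variable {L : Type*} [Field L]

/-- Rational representation `x · g(j) = P(j,u)`: membership in `L(j)[u]`. -/
def InTL (jL uL : LaurentSeries L) (x : LaurentSeries L) : Prop :=
  ∃ g : L[X], g ≠ 0 ∧ ∃ P : L[X][X], x * pev1 jL g = pev2 jL uL P

variable {jL uL : LaurentSeries L}

theorem inTL_of_pev2 (P : L[X][X]) : InTL jL uL (pev2 jL uL P) :=
  ⟨1, one_ne_zero, P, by rw [map_one, mul_one]⟩

theorem inTL_zero : InTL jL uL 0 := by
  simpa using inTL_of_pev2 (jL := jL) (uL := uL) 0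

theorem inTL_one : InTL jL uL 1 := by
  simpa using inTL_of_pev2 (jL := jL) (uL := uL) 1

theorem inTL_j : InTL jL uL jL := by
  simpa using inTL_of_pev2 (jL := jL) (uL := uL) (C X)

theorem inTL_u : InTL jL uL uL := by
  simpa using inTL_of_pev2 (jL := jL) (uL := uL) X

theorem inTL_C (c : L) : InTL jL uL (HahnSeries.C c) := by
  have h := inTL_of_pev2 (jL := jL) (uL := uL) (C (C c))
  rwa [pev2_C, pev1_C] at h

theorem inTL_algebraMap (c : L) : InTL jL uL (algebraMap L (LaurentSeries L) c) := by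
  rw [← hahnC_eq_algebraMap]; exact inTL_C c

theorem inTL_add {x y : LaurentSeries L} (hx : InTL jL uL x) (hy : InTL jL uL y) :
    InTL jL uL (x + y) := by
  obtain ⟨g₁, hg₁, P₁, h₁⟩ := hx
  obtain ⟨g₂, hg₂, P₂, h₂⟩ := hy
  refine ⟨g₁ * g₂, mul_ne_zero hg₁ hg₂, P₁ * C g₂ + P₂ * C g₁, ?_⟩
  rw [map_mul, map_add, map_mul, map_mul, pev2_C, pev2_C, ← h₁, ← h₂]
  ring

theorem inTL_mul {x y : LaurentSeries L} (hx : InTL jL uL x) (hy : InTL jL uL y) :
    InTL jL uL (x * y) := by
  obtain ⟨g₁, hg₁, P₁, h₁⟩ := hx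
  obtain ⟨g₂, hg₂, P₂, h₂⟩ := hy
  refine ⟨g₁ * g₂, mul_ne_zero hg₁ hg₂, P₁ * P₂, ?_⟩
  rw [map_mul, map_mul, ← h₁, ← h₂]
  ring

theorem inTL_neg {x : LaurentSeries L} (hx : InTL jL uL x) : InTL jL uL (-x) := by
  obtain ⟨g, hg, P, h⟩ := hx
  exact ⟨g, hg, -P, by rw [map_neg, ← h, neg_mul]⟩

/-- Every value `P(j,u)` is integral over `L[j]` (through `pev1 j`). -/
theorem isIntegralElem_pev2 (χL : L[X][X]) (hχm : χL.Monic) (hχu : pev2 jL uL χL = 0)
    (P : L[X][X]) : (pev1 jL).IsIntegralElem (pev2 jL uL P) := by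
  have hu : (pev1 jL).IsIntegralElem uL := ⟨χL, hχm, by rwa [← pev2_apply]⟩
  induction P using Polynomial.induction_on' with
  | add p q hp hq =>
    rw [map_add]; exact RingHom.IsIntegralElem.add _ hp hq
  | monomial n a =>
    have h1 : pev2 jL uL (monomial n a) = pev1 jL a * uL ^ n := by
      rw [pev2_apply, eval₂_monomial]
    rw [h1]
    refine RingHom.IsIntegralElem.mul _ (RingHom.isIntegralElem_map _) ?_
    clear h1
    induction n with
    | zero => rw [pow_zero]; exact RingHom.isIntegralElem_one _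
    | succ n ih => rw [pow_succ]; exact RingHom.IsIntegralElem.mul _ ih hu

theorem inTL_inv (hinj : Function.Injective (pev1 jL))
    (χL : L[X][X]) (hχm : χL.Monic) (hχu : pev2 jL uL χL = 0)
    {x : LaurentSeries L} (hx : InTL jL uL x) : InTL jL uL x⁻¹ := by
  rcases eq_or_ne x 0 with rfl | hx0
  · rw [inv_zero]; exact inTL_zero
  obtain ⟨g, hg, P, hP⟩ := hx
  have hgj : pev1 jL g ≠ 0 := fun h => hg (hinj (by rw [h, map_zero]))
  set w := pev2 jL uL P with hw
  have hw0 : w ≠ 0 := by rw [← hP]; exact mul_ne_zero hx0 hgj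
  obtain ⟨p, hpm, hpw⟩ := isIntegralElem_pev2 χL hχm hχu P
  obtain ⟨q, hqm, hqw, hq0⟩ := d3_exists_monic_coeff_zero_ne (pev1 jL) hw0 p hpm hpw
  have hinv := d3_inv_mul_eq (pev1 jL) hw0 q hqw
  have hcomp : (q.divX).eval₂ (pev1 jL) w =
      pev2 jL uL ((q.divX).eval₂ (C : L[X] →+* L[X][X]) P) := by
    rw [hom_eval₂]
    congr 1
    exact RingHom.ext fun a => (pev2_C jL uL a).symm
  refine ⟨-q.coeff 0, neg_ne_zero.mpr hq0, C g * (q.divX).eval₂ (C : L[X] →+* L[X][X]) P, ?_⟩
  rw [map_mul, pev2_C, ← hcomp, ← hinv]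
  have hx' : x⁻¹ = pev1 jL g * w⁻¹ := by
    rw [← hP, mul_inv, mul_comm x⁻¹, ← mul_assoc, mul_inv_cancel₀ hgj, one_mul]
  rw [hx']
  ring

/-- every element of `L(j, u)` has a representation `x · g(j) = P(j, u)`. -/
theorem inTL_of_mem_adjoin (jL uL : LaurentSeries L) (hinj : Function.Injective (pev1 jL))
    (χL : L[X][X]) (hχm : χL.Monic) (hχu : pev2 jL uL χL = 0)
    {x : LaurentSeries L}
    (hx : x ∈ IntermediateField.adjoin L ({jL, uL} : Set (LaurentSeries L))) :
    InTL jL uL x := by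
  induction hx using IntermediateField.adjoin_induction with
  | mem x hx =>
    rcases hx with rfl | hx
    · exact inTL_j
    · rw [Set.mem_singleton_iff] at hx; rw [hx]; exact inTL_u
  | algebraMap c => exact inTL_algebraMap c
  | add x y _ _ hx hy => exact inTL_add hx hy
  | inv x _ hx => exact inTL_inv hinj χL hχm hχu hx
  | mul x y _ _ hx hy => exact inTL_mul hx hy

/-- conversely, elements with a rational representation lie in `L(j,u)`. -/
theorem mem_adjoin_of_inTL (hinj : Function.Injective (pev1 jL))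
    {x : LaurentSeries L} (hx : InTL jL uL x) :
    x ∈ IntermediateField.adjoin L ({jL, uL} : Set (LaurentSeries L)) := by
  obtain ⟨g, hg, P, hP⟩ := hx
  have hgj : pev1 jL g ≠ 0 := fun h => hg (hinj (by rw [h, map_zero]))
  have hj : jL ∈ IntermediateField.adjoin L ({jL, uL} : Set (LaurentSeries L)) :=
    IntermediateField.subset_adjoin L _ (Set.mem_insert _ _)
  have hu : uL ∈ IntermediateField.adjoin L ({jL, uL} : Set (LaurentSeries L)) :=
    IntermediateField.subset_adjoin L _ (Set.mem_insert_of_mem _ rfl)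
  have h1 : ∀ g : L[X], pev1 jL g ∈
      IntermediateField.adjoin L ({jL, uL} : Set (LaurentSeries L)) := by
    intro g
    rw [pev1_eq_evJ]
    show aeval jL g ∈ _
    rw [aeval_eq_sum_range]
    refine Finset.sum_induction _ (· ∈ IntermediateField.adjoin L ({jL, uL} : Set (LaurentSeries L)))
      (fun a b ha hb => add_mem ha hb) (zero_mem _) (fun i _ => ?_)
    rw [Algebra.smul_def]
    exact mul_mem (IntermediateField.algebraMap_mem _ _) (pow_mem hj i)
  have h2 : ∀ P : L[X][X], pev2 jL uL P ∈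
      IntermediateField.adjoin L ({jL, uL} : Set (LaurentSeries L)) := by
    intro P
    rw [pev2_apply, eval₂_eq_sum_range]
    refine Finset.sum_induction _ (· ∈ IntermediateField.adjoin L ({jL, uL} : Set (LaurentSeries L)))
      (fun a b ha hb => add_mem ha hb) (zero_mem _) (fun i _ => ?_)
    exact mul_mem (h1 _) (pow_mem hu i)
  have hx : x = pev2 jL uL P * (pev1 jL g)⁻¹ := by
    rw [← hP, mul_assoc, mul_inv_cancel₀ hgj, mul_one]
  rw [hx]
  exact mul_mem (h2 P) (inv_mem (h1 g))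

end

end Fermat.Agent.GaussVal
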