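import Mathlib
import Fermat.Agent.Lib.GaussVal.Rational

/-!
# Gauss valuation (cluster B): properties of `O_v` and `ρ`

Setting: a valuation triple `ι : R → L`, `r : R → k`; `jR uR : R((q))`; `χR ∈ R[Y][X]` monic of degree `n`
with `χR(jR,uR) = 0`; `1, ū, …, ū^{n-1}` independent over `k[j̄]` (`hind`).

* `rho_ker` (G3) : `ρ x = 0 → x = c · z`, `c ∈ 𝔪_R`, `z ∈ O_v`;
* `exists_normal_form` (G4) : every nonzero `x ∈ L(j)[u]` is `c · x = y`, `c ∈ Lˣ`, `y ∈ O_v`, `ρ y ≠ 0`;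
* `inv_mem_Ov`, `mem_or_inv_mem_Ov` (G5);
* `coeffMap_mem_Ov` : elements of `L(j)[u]` with coefficients in `R` lie in `O_v` (and `ρ` is the coefficientwise
  reduction on them, `rho_coeffMap`);
* `exists_rep_lt` : integral basis `1, u, …, u^{n-1}`;
* `rho_mem_range_iff` : `ρ(O_v) = k(j̄)[ū]`.
-/

set_option autoImplicit false

namespace Fermat.Agent.GaussVal

open Polynomial ModularCurve Fermat.Agent.S28

noncomputable section

variable {L R k : Type*} [Field L] [CommRing R] [Field k]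
variable {ι : R →+* L} {r : R →+* k}
variable {jR uR : LaurentSeries R}

theorem hahnC_ne_zero' {c : L} (hc : c ≠ 0) : (HahnSeries.C c : LaurentSeries L) ≠ 0 :=
  HahnSeries.C_ne_zero hc

theorem coeffMap_hahnC_mul (f : R →+* L) (b : R) (y : LaurentSeries R) :
    coeffMap f (HahnSeries.C b * y) = HahnSeries.C (f b) * coeffMap f y := by
  rw [map_mul, coeffMap_hahnC]

section Basic

variable (ι r jR uR)

theorem const_mem_Ov (a : R) : (HahnSeries.C (ι a) : LaurentSeries L) ∈ Ov ι r jR uR := by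
  refine inOv_of_eq ι r jR uR (C (C a)) ?_
  rw [pev2_C, pev1_C, coeffMap_hahnC]

theorem j_mem_Ov : coeffMap ι jR ∈ Ov ι r jR uR := by
  refine inOv_of_eq ι r jR uR (C X) ?_
  rw [pev2_C, pev1_X]

theorem u_mem_Ov : coeffMap ι uR ∈ Ov ι r jR uR := by
  refine inOv_of_eq ι r jR uR X ?_
  rw [pev2_X]

theorem jinv_mem_Ov (hj : coeffMap ι jR ≠ 0) : (coeffMap ι jR)⁻¹ ∈ Ov ι r jR uR := by
  refine ⟨X, ?_, 1, ?_⟩
  · rw [Polynomial.map_X]; exact X_ne_zero
  · rw [pev1_X, map_one, map_one, inv_mul_cancel₀ hj]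

end Basic

/-- `ρ` of a constant. -/
theorem rho_const (hι : Function.Injective ι) (hinj : Function.Injective (pev1 (coeffMap r jR)))
    (a : R) :
    rho ι r jR uR hι hinj ⟨HahnSeries.C (ι a), const_mem_Ov ι r jR uR a⟩ = HahnSeries.C (r a) := by
  have h := rho_coeffMap_pev2 (ι := ι) (r := r) (jR := jR) (uR := uR) hι hinj (C (C a))
  have e : coeffMap ι (pev2 jR uR (C (C a))) = HahnSeries.C (ι a) := by
    rw [pev2_C, pev1_C, coeffMap_hahnC]
  have e2 : coeffMap r (pev2 jR uR (C (C a))) = HahnSeries.C (r a) := by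
    rw [pev2_C, pev1_C, coeffMap_hahnC]
  rw [← e2, ← h]
  congr 1
  exact Subtype.ext e.symm

/-- **(G3) `ker ρ = 𝔪 · O_v`**. -/
theorem rho_ker (hv : VTriple ι r) {n : ℕ}
    (χR : R[X][X]) (hχm : χR.Monic) (hχd : χR.natDegree = n) (hn : 0 < n)
    (hχu : pev2 jR uR χR = 0)
    (hind : IndepUpTo (coeffMap r jR) (coeffMap r uR) n)
    (hinj : Function.Injective (pev1 (coeffMap r jR)))
    (x : ↥(Ov ι r jR uR)) (hx : rho ι r jR uR hv.inj hinj x = 0) :
    ∃ (b : R) (z : ↥(Ov ι r jR uR)), r b = 0 ∧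
      (x : LaurentSeries L) = HahnSeries.C (ι b) * (z : LaurentSeries L) := by
  obtain ⟨g, hg, P, hP⟩ := (mem_Ov_iff ι r jR uR).mp x.2
  rw [rho_eq hv.inj hinj x hg hP, div_eq_zero_iff] at hx
  have hP0 : coeffMap r (pev2 jR uR P) = 0 := hx.resolve_right (red_pev1_ne_zero hinj hg)
  obtain ⟨b, P', hb, hP'⟩ := reduction_kernel' hv χR hχm hχd hn hχu hind P hP0
  by_cases hb0 : b = 0
  · refine ⟨0, 0, map_zero r, ?_⟩
    rw [hb0, map_zero, zero_mul] at hP'
    rw [hP', map_zero] at hP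
    have hgj : coeffMap ι (pev1 jR g) ≠ 0 := by
      intro h0
      have h1 : pev1 jR g = 0 := coeffMap_injective hv.inj (by rw [h0, map_zero])
      exact red_pev1_ne_zero hinj hg (by rw [h1, map_zero])
    rw [(mul_eq_zero.mp hP).resolve_right hgj, map_zero, map_zero, zero_mul]
  have hιb : ι b ≠ 0 := fun h0 => hb0 (hv.inj (by rw [h0, map_zero]))
  have hCb : (HahnSeries.C (ι b) : LaurentSeries L) ≠ 0 := HahnSeries.C_ne_zero hιb
  have hz : InOv ι r jR uR ((x : LaurentSeries L) / HahnSeries.C (ι b)) := by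
    refine ⟨g, hg, P', ?_⟩
    rw [div_mul_eq_mul_div, hP, hP', coeffMap_hahnC_mul, mul_div_assoc, mul_comm,
      div_mul_cancel₀ _ hCb]
  refine ⟨b, ⟨_, hz⟩, hb, ?_⟩
  show (x : LaurentSeries L) = HahnSeries.C (ι b) * ((x : LaurentSeries L) / HahnSeries.C (ι b))
  rw [mul_div_cancel₀ _ hCb]

/-- `j` is transcendental over `L` as soon as `j̄` is transcendental over `k`. -/
theorem pev1_coeffMap_injective (hv : VTriple ι r)
    (hinj : Function.Injective (pev1 (coeffMap r jR))) :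
    Function.Injective (pev1 (coeffMap ι jR)) := by
  rw [injective_iff_map_eq_zero]
  intro g hg
  by_contra hg0
  obtain ⟨c, g₀, hc, hres, heq⟩ := hv.nrm1 g hg0
  have h1 : pev1 (coeffMap ι jR) (g₀.map ι) = 0 := by
    rw [← heq, map_mul, hg, mul_zero]
  have h3 : pev1 jR g₀ = 0 := by
    apply coeffMap_injective hv.inj
    rw [coeffMap_pev1, map_zero]
    exact h1
  apply hres
  apply hinj
  rw [← coeffMap_pev1, h3, map_zero, map_zero]

theorem natDegree_CC_mul {c : L} (hc : c ≠ 0) (P : L[X][X]) :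
    (C (C c) * P).natDegree = P.natDegree :=
  natDegree_C_mul (by rw [Ne, C_eq_zero]; exact hc)

/-- **(G4)** normal form of a nonzero element of `L(j)[u]`. -/
theorem exists_normal_form (hv : VTriple ι r) {n : ℕ}
    (χR : R[X][X]) (hχm : χR.Monic) (hχd : χR.natDegree = n) (hn : 0 < n)
    (hχu : pev2 jR uR χR = 0)
    (hind : IndepUpTo (coeffMap r jR) (coeffMap r uR) n)
    (hinj : Function.Injective (pev1 (coeffMap r jR)))
    {x : LaurentSeries L} (hxT : InTL (coeffMap ι jR) (coeffMap ι uR) x) (hx0 : x ≠ 0) :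
    ∃ (c : L) (y : ↥(Ov ι r jR uR)), c ≠ 0 ∧ rho ι r jR uR hv.inj hinj y ≠ 0 ∧
      HahnSeries.C c * x = (y : LaurentSeries L) := by
  classical
  obtain ⟨g, hg, P, hP⟩ := hxT
  have hιinj : Function.Injective ι := hv.inj
  have hι1 : Function.Injective (mapRingHom ι) := Polynomial.map_injective ι hιinj
  set χQ : L[X][X] := χR.map (mapRingHom ι) with hχQ
  have hχQm : χQ.Monic := hχm.map _
  have hχQd : χQ.natDegree = n := by
    rw [← hχd]; exact natDegree_map_eq_of_injective hι1 _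
  have hχQ1 : χQ ≠ 1 := by
    intro h; rw [h, natDegree_one] at hχQd; omega
  have hχQu : pev2 (coeffMap ι jR) (coeffMap ι uR) χQ = 0 := by
    rw [hχQ, ← coeffMap_pev2, hχu, map_zero]
  set P₁ := P %ₘ χQ with hP₁
  have hdiv : P₁ + χQ * (P /ₘ χQ) = P := modByMonic_add_div P χQ
  have hev : pev2 (coeffMap ι jR) (coeffMap ι uR) P = pev2 (coeffMap ι jR) (coeffMap ι uR) P₁ := by
    conv_lhs => rw [← hdiv]
    rw [map_add, map_mul, hχQu, zero_mul, add_zero]
  have hdeg : P₁.natDegree < n := by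
    rw [← hχQd]; exact natDegree_modByMonic_lt P hχQm hχQ1
  have hinjQ := pev1_coeffMap_injective hv hinj
  have hgj : pev1 (coeffMap ι jR) g ≠ 0 := fun h => hg (hinjQ (by rw [h, map_zero]))
  have hP₁0 : P₁ ≠ 0 := by
    intro h
    rw [hev, h, map_zero] at hP
    exact (mul_ne_zero hx0 hgj) hP
  obtain ⟨c₁, g₀, hc₁, hg₀, hgeq⟩ := hv.nrm1 g hg
  obtain ⟨c₂, P₀, hc₂, hP₀, hPeq⟩ := hv.nrm2 P₁ hP₁0
  have hdeg₀ : P₀.natDegree < n := by
    have e1 : P₀.natDegree = (P₀.map (mapRingHom ι)).natDegree :=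
      (natDegree_map_eq_of_injective hι1 _).symm
    rw [e1, ← hPeq, natDegree_CC_mul hc₂]; exact hdeg
  have hredP : coeffMap r (pev2 jR uR P₀) ≠ 0 := by
    intro h
    apply hP₀
    apply hind
    · exact lt_of_le_of_lt natDegree_map_le hdeg₀
    · rw [← coeffMap_pev2]; exact h
  -- evaluate the two normalisations
  have hgev : HahnSeries.C c₁ * pev1 (coeffMap ι jR) g = coeffMap ι (pev1 jR g₀) := by
    have := congrArg (pev1 (coeffMap ι jR)) hgeq
    rw [map_mul, pev1_C] at this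
    rw [this, coeffMap_pev1]
  have hPev : HahnSeries.C c₂ * pev2 (coeffMap ι jR) (coeffMap ι uR) P₁ =
      coeffMap ι (pev2 jR uR P₀) := by
    have := congrArg (pev2 (coeffMap ι jR) (coeffMap ι uR)) hPeq
    rw [map_mul, pev2_C, pev1_C] at this
    rw [this, coeffMap_pev2]
  have hC₁ : (HahnSeries.C c₁ : LaurentSeries L) ≠ 0 := HahnSeries.C_ne_zero hc₁
  have hc : c₂ / c₁ ≠ 0 := div_ne_zero hc₂ hc₁
  have hCdiv : (HahnSeries.C (c₂ / c₁) : LaurentSeries L) = HahnSeries.C c₂ / HahnSeries.C c₁ := by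
    rw [map_div₀]
  set y : LaurentSeries L := HahnSeries.C (c₂ / c₁) * x with hy
  have hyeq : y * coeffMap ι (pev1 jR g₀) = coeffMap ι (pev2 jR uR P₀) := by
    rw [hy, ← hgev, ← hPev, ← hev, ← hP, hCdiv]
    field_simp
  have hyB : InOv ι r jR uR y := ⟨g₀, hg₀, P₀, hyeq⟩
  refine ⟨c₂ / c₁, ⟨y, hyB⟩, hc, ?_, rfl⟩
  rw [rho_eq hv.inj hinj ⟨y, hyB⟩ hg₀ hyeq]
  exact div_ne_zero hredP (red_pev1_ne_zero hinj hg₀)

/-- A constant `c ∈ Lˣ` lying in `O_v` with nonzero reduction is a unit of `R`: `c⁻¹ ∈ ι(R)`. -/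
theorem const_inv_of_mem (hv : VTriple ι r)
    (hinj : Function.Injective (pev1 (coeffMap r jR)))
    {c : L} (hc : c ≠ 0) (hmem : (HahnSeries.C c : LaurentSeries L) ∈ Ov ι r jR uR)
    (hρ : rho ι r jR uR hv.inj hinj ⟨_, hmem⟩ ≠ 0) : ∃ a : R, ι a = c⁻¹ := by
  rcases hv.total c hc with ⟨a, ha⟩ | ⟨b, hb⟩
  · subst ha
    have hra : r a ≠ 0 := by
      intro h0
      apply hρ
      have h1 := rho_const (ι := ι) (r := r) (jR := jR) (uR := uR) hv.inj hinj a
      rw [h0, map_zero] at h1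
      exact h1
    obtain ⟨a', ha'⟩ := hv.unit a hra
    refine ⟨a', ?_⟩
    have h1 : ι a * ι a' = 1 := by rw [← map_mul, ha', map_one]
    exact (eq_inv_of_mul_eq_one_right h1)
  · exact ⟨b, hb⟩

/-- **(G5)** units of `O_v`. -/
theorem inv_mem_Ov (hv : VTriple ι r) {n : ℕ}
    (χR : R[X][X]) (hχm : χR.Monic) (hχd : χR.natDegree = n) (hn : 0 < n)
    (hχu : pev2 jR uR χR = 0)
    (hind : IndepUpTo (coeffMap r jR) (coeffMap r uR) n)
    (hinj : Function.Injective (pev1 (coeffMap r jR)))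
    (x : ↥(Ov ι r jR uR)) (hx : rho ι r jR uR hv.inj hinj x ≠ 0) :
    (x : LaurentSeries L)⁻¹ ∈ Ov ι r jR uR := by
  have hx0 : (x : LaurentSeries L) ≠ 0 := by
    intro h0
    apply hx
    have : x = 0 := Subtype.ext h0
    rw [this, map_zero]
  have hι1 : Function.Injective (mapRingHom ι) := Polynomial.map_injective ι hv.inj
  have hxT : InTL (coeffMap ι jR) (coeffMap ι uR) (x : LaurentSeries L) := by
    obtain ⟨g, hg, P, hP⟩ := (mem_Ov_iff ι r jR uR).mp x.2
    refine ⟨g.map ι, ?_, P.map (mapRingHom ι), ?_⟩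
    · intro h0
      apply hg
      have : g = 0 := (Polynomial.map_injective ι hv.inj) (by rw [h0, Polynomial.map_zero])
      rw [this, Polynomial.map_zero]
    · rw [← coeffMap_pev1, ← coeffMap_pev2]; exact hP
  have hinjQ := pev1_coeffMap_injective hv hinj
  have hχQu : pev2 (coeffMap ι jR) (coeffMap ι uR) (χR.map (mapRingHom ι)) = 0 := by
    rw [← coeffMap_pev2, hχu, map_zero]
  have hinvT := inTL_inv hinjQ (χR.map (mapRingHom ι)) (hχm.map _) hχQu hxT
  obtain ⟨c, y, hc, hy, hcy⟩ := exists_normal_form hv χR hχm hχd hn hχu hind hinj hinvT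
    (inv_ne_zero hx0)
  -- `C c = x * y`
  have hCc : (HahnSeries.C c : LaurentSeries L) = (x : LaurentSeries L) * (y : LaurentSeries L) := by
    rw [← hcy, mul_comm (HahnSeries.C c), ← mul_assoc, mul_inv_cancel₀ hx0, one_mul]
  have hmem : (HahnSeries.C c : LaurentSeries L) ∈ Ov ι r jR uR := by
    rw [hCc]; exact (x * y).2
  have hρ : rho ι r jR uR hv.inj hinj ⟨_, hmem⟩ ≠ 0 := by
    have e : (⟨_, hmem⟩ : ↥(Ov ι r jR uR)) = x * y := Subtype.ext hCc
    rw [e, map_mul]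
    exact mul_ne_zero hx hy
  obtain ⟨a, ha⟩ := const_inv_of_mem hv hinj hc hmem hρ
  have hxinv : (x : LaurentSeries L)⁻¹ = HahnSeries.C (ι a) * (y : LaurentSeries L) := by
    rw [ha, ← hcy, ← mul_assoc, ← map_mul, inv_mul_cancel₀ hc, map_one, one_mul]
  rw [hxinv]
  exact Subring.mul_mem _ (const_mem_Ov ι r jR uR a) y.2

/-- **(G5)** `O_v ∩ L(j)[u]` is a valuation ring of `L(j)[u]`. -/
theorem mem_or_inv_mem_Ov (hv : VTriple ι r) {n : ℕ}
    (χR : R[X][X]) (hχm : χR.Monic) (hχd : χR.natDegree = n) (hn : 0 < n)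
    (hχu : pev2 jR uR χR = 0)
    (hind : IndepUpTo (coeffMap r jR) (coeffMap r uR) n)
    (hinj : Function.Injective (pev1 (coeffMap r jR)))
    {x : LaurentSeries L} (hxT : InTL (coeffMap ι jR) (coeffMap ι uR) x) :
    x ∈ Ov ι r jR uR ∨ x⁻¹ ∈ Ov ι r jR uR := by
  rcases eq_or_ne x 0 with rfl | hx0
  · exact Or.inl (Subring.zero_mem _)
  obtain ⟨c, y, hc, hy, hcy⟩ := exists_normal_form hv χR hχm hχd hn hχu hind hinj hxT hx0
  rcases hv.total c hc with ⟨a, ha⟩ | ⟨b, hb⟩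
  · right
    have hyinv := inv_mem_Ov hv χR hχm hχd hn hχu hind hinj y hy
    have : x⁻¹ = HahnSeries.C (ι a) * (y : LaurentSeries L)⁻¹ := by
      rw [← hcy, ha, mul_inv, ← mul_assoc, mul_inv_cancel₀ (HahnSeries.C_ne_zero hc), one_mul]
    rw [this]
    exact Subring.mul_mem _ (const_mem_Ov ι r jR uR a) hyinv
  · left
    have : x = HahnSeries.C (ι b) * (y : LaurentSeries L) := by
      rw [hb, ← hcy, ← mul_assoc, ← map_mul, inv_mul_cancel₀ hc, map_one, one_mul]
    rw [this]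
    exact Subring.mul_mem _ (const_mem_Ov ι r jR uR b) y.2

/-- Elements of `L(j)[u]` with coefficients in `R` lie in `O_v`. -/
theorem coeffMap_mem_Ov (hv : VTriple ι r) {n : ℕ}
    (χR : R[X][X]) (hχm : χR.Monic) (hχd : χR.natDegree = n) (hn : 0 < n)
    (hχu : pev2 jR uR χR = 0)
    (hind : IndepUpTo (coeffMap r jR) (coeffMap r uR) n)
    (hinj : Function.Injective (pev1 (coeffMap r jR)))
    (y : LaurentSeries R) (hyT : InTL (coeffMap ι jR) (coeffMap ι uR) (coeffMap ι y)) :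
    coeffMap ι y ∈ Ov ι r jR uR := by
  rcases eq_or_ne (coeffMap ι y) 0 with h0 | hx0
  · rw [h0]; exact Subring.zero_mem _
  obtain ⟨c, z, hc, hz, hcz⟩ := exists_normal_form hv χR hχm hχd hn hχu hind hinj hyT hx0
  rcases hv.total c hc with ⟨a, ha⟩ | ⟨b, hb⟩
  · by_cases hra : r a = 0
    · exfalso
      apply hz
      have hz' : (z : LaurentSeries L) = coeffMap ι (HahnSeries.C a * y) := by
        rw [coeffMap_hahnC_mul, ha, hcz]
      have hmem : coeffMap ι (HahnSeries.C a * y) ∈ Ov ι r jR uR := by rw [← hz']; exact z.2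
      have e : z = ⟨_, hmem⟩ := Subtype.ext hz'
      rw [e, rho_coeffMap hv.inj hinj _ hmem, map_mul, coeffMap_hahnC, hra, map_zero, zero_mul]
    · obtain ⟨a', ha'⟩ := hv.unit a hra
      have h1 : ι a * ι a' = 1 := by rw [← map_mul, ha', map_one]
      have h2 : coeffMap ι y = HahnSeries.C (ι a') * (z : LaurentSeries L) := by
        rw [← hcz, ← mul_assoc, ← map_mul, ← ha, mul_comm (ι a'), h1, map_one, one_mul]
      rw [h2]
      exact Subring.mul_mem _ (const_mem_Ov ι r jR uR a') z.2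
  · have h2 : coeffMap ι y = HahnSeries.C (ι b) * (z : LaurentSeries L) := by
      rw [hb, ← hcz, ← mul_assoc, ← map_mul, inv_mul_cancel₀ hc, map_one, one_mul]
    rw [h2]
    exact Subring.mul_mem _ (const_mem_Ov ι r jR uR b) z.2

/-- **integral basis**: every element of `O_v` is `P(j,u)/g(j)` with `deg_X P < n`. -/
theorem exists_rep_lt {n : ℕ}
    (χR : R[X][X]) (hχm : χR.Monic) (hχd : χR.natDegree = n) (hn : 0 < n)
    (hχu : pev2 jR uR χR = 0)
    {x : LaurentSeries L} (hx : x ∈ Ov ι r jR uR) :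
    ∃ g : R[X], g.map r ≠ 0 ∧ ∃ P : R[X][X], P.natDegree < n ∧
      x * coeffMap ι (pev1 jR g) = coeffMap ι (pev2 jR uR P) := by
  obtain ⟨g, hg, P, hP⟩ := hx
  have hχ1 : χR ≠ 1 := by
    intro h
    rw [h, natDegree_one] at hχd
    omega
  refine ⟨g, hg, P %ₘ χR, ?_, ?_⟩
  · rw [← hχd]; exact natDegree_modByMonic_lt P hχm hχ1
  · have hdiv : P %ₘ χR + χR * (P /ₘ χR) = P := modByMonic_add_div P χR
    have hev : pev2 jR uR P = pev2 jR uR (P %ₘ χR) := by
      conv_lhs => rw [← hdiv]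
      rw [map_add, map_mul, hχu, zero_mul, add_zero]
    rw [hP, hev]

/-- **residue field**: `ρ(O_v)` is exactly `k(j̄)[ū]` (rational representation over `k`). -/
theorem rho_mem_range_iff (hv : VTriple ι r) (hr : Function.Surjective r)
    (hinj : Function.Injective (pev1 (coeffMap r jR))) (z : LaurentSeries k) :
    (∃ x : ↥(Ov ι r jR uR), rho ι r jR uR hv.inj hinj x = z) ↔
      InTL (coeffMap r jR) (coeffMap r uR) z := by
  constructor
  · rintro ⟨x, rfl⟩
    obtain ⟨g, hg, P, hP⟩ := (mem_Ov_iff ι r jR uR).mp x.2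
    refine ⟨g.map r, hg, P.map (mapRingHom r), ?_⟩
    rw [rho_eq hv.inj hinj x hg hP, ← coeffMap_pev1, ← coeffMap_pev2,
      div_mul_cancel₀ _ (red_pev1_ne_zero hinj hg)]
  · rintro ⟨g, hg, P, hP⟩
    obtain ⟨g₀, rfl⟩ := Polynomial.map_surjective r hr g
    obtain ⟨P₀, rfl⟩ := Polynomial.map_surjective (mapRingHom r)
      (Polynomial.map_surjective r hr) P
    have hg' : coeffMap ι (pev1 jR g₀) ≠ 0 := by
      intro h0
      have h1 : pev1 jR g₀ = 0 := coeffMap_injective hv.inj (by rw [h0, map_zero])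
      exact red_pev1_ne_zero hinj hg (by rw [h1, map_zero])
    have hmem : InOv ι r jR uR (coeffMap ι (pev2 jR uR P₀) / coeffMap ι (pev1 jR g₀)) :=
      ⟨g₀, hg, P₀, div_mul_cancel₀ _ hg'⟩
    refine ⟨⟨_, hmem⟩, ?_⟩
    rw [rho_eq hv.inj hinj ⟨_, hmem⟩ hg (div_mul_cancel₀ _ hg'),
      div_eq_iff (red_pev1_ne_zero hinj hg), coeffMap_pev2, coeffMap_pev1]
    exact hP.symm

end

end Fermat.Agent.GaussVal
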