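import Mathlib
import Fermat.Prelude.Def_ModularCurve_ArithmeticGalois
import Fermat.Prelude.Def_ModularCurve_X0ModL
import Fermat.Agent.S28.ThmA
import Fermat.Agent.S28.DescentMain
import Fermat.Agent.S28.DescentD3
import Fermat.Agent.S28.RedMain
import Fermat.Agent.Lib.GaussVal.Props

/-!
# Gauss valuation (cluster B): the modular instance (G7)

`L` a field of characteristic `0`, `A` a valuation subring of `L` with `ℓ ∈ 𝔪_A`, `ℓ ∤ N`.
`ModData A N` packages: the formal unit `u = q^a E` of S28, a monic `χ ∈ A[Y][X]` of degree `n`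
with `χ(j,u) = 0`, independence of `1, ū, …, ū^{n-1}` over `k[j̄]` (`k` the residue field of `A`),
and `laurentBaseChange L (modularFunctionFieldFull N) ⊆ L(j)[u]`.
`nonempty_modData` : such data exist (from S28: `thmA`, `descent_main`, D3, `order_lemma`).
So all results of `Props.lean` apply to `F = modularFunctionFieldBar N` with no extra hypothesis.
-/

set_option autoImplicit false

namespace Fermat.Agent.GaussVal

open Polynomial ModularCurve Fermat.Agent.S28

noncomputable section

variable {L : Type*} [Field L] [Algebra ℚ L]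

section RatLoc

variable (A : ValuationSubring L) (ℓ : ℕ)

omit [Algebra ℚ L] in
theorem natCast_isUnit_of_coprime (hA : (ℓ : L) ∈ A.nonunits) {d : ℕ} (hd : d.Coprime ℓ) :
    IsUnit ((d : ℕ) : A) := by
  by_contra hnu
  have hd_mem : ((d : ℕ) : A) ∈ IsLocalRing.maximalIdeal A :=
    (IsLocalRing.mem_maximalIdeal _).mpr hnu
  have hℓ_mem : ((ℓ : ℕ) : A) ∈ IsLocalRing.maximalIdeal A := by
    apply ValuationSubring.coe_mem_nonunits_iff.mp
    have e : (((ℓ : ℕ) : A) : L) = (ℓ : L) := rfl
    rw [e]; exact hA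
  have hbez : ((Nat.gcdA d ℓ : ℤ) : A) * ((d : ℕ) : A) + ((Nat.gcdB d ℓ : ℤ) : A) * ((ℓ : ℕ) : A) = 1 := by
    have h := Nat.gcd_eq_gcd_ab d ℓ
    have hd1 : Nat.gcd d ℓ = 1 := hd
    rw [hd1] at h
    have h2 : (((1 : ℕ) : ℤ) : A) = (((d : ℤ) * Nat.gcdA d ℓ + (ℓ : ℤ) * Nat.gcdB d ℓ : ℤ) : A) := by
      rw [h]
    push_cast at h2
    rw [h2]; ring
  have h1 : (1 : A) ∈ IsLocalRing.maximalIdeal A := by
    rw [← hbez]
    exact Ideal.add_mem _ (Ideal.mul_mem_left _ _ hd_mem) (Ideal.mul_mem_left _ _ hℓ_mem)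
  exact (Ideal.ne_top_iff_one _).mp (IsLocalRing.maximalIdeal.isMaximal A).ne_top h1

theorem algebraMap_rat_mem (hA : (ℓ : L) ∈ A.nonunits) {q : ℚ}
    (hq : q ∈ GaloisRep.ratLocalizedAt ℓ) : algebraMap ℚ L q ∈ A := by
  have hu := natCast_isUnit_of_coprime A ℓ hA (d := q.den) hq
  obtain ⟨v, hv⟩ := hu
  have hval : ((v : A) : L) = (q.den : L) := by rw [hv]; simp
  have hden : (q.den : L) ≠ 0 := by
    rw [← hval]
    intro h0
    have : (v : A) = 0 := Subtype.ext h0
    exact v.ne_zero this
  have hinv : (((v⁻¹ : Aˣ) : A) : L) = (q.den : L)⁻¹ := by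
    have h1 : ((v : A) : L) * (((v⁻¹ : Aˣ) : A) : L) = 1 := by
      rw [← MulMemClass.coe_mul, Units.mul_inv]; rfl
    rw [hval] at h1
    exact eq_inv_of_mul_eq_one_right h1
  have hq' : algebraMap ℚ L q = (q.num : L) * (q.den : L)⁻¹ := by
    rw [eq_ratCast, Rat.cast_def, div_eq_mul_inv]
  rw [hq', ← hinv]
  exact A.mul_mem _ _ (by exact_mod_cast (intCast_mem A q.num)) (Subtype.mem _)

/-- The inclusion `ℤ_(ℓ) → A` for a valuation ring `A` over `ℓ`. -/
def ratLocToA (hA : (ℓ : L) ∈ A.nonunits) : ↥(GaloisRep.ratLocalizedAt ℓ) →+* A where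
  toFun q := ⟨algebraMap ℚ L (q : ℚ), algebraMap_rat_mem A ℓ hA q.2⟩
  map_one' := Subtype.ext (by simp)
  map_zero' := Subtype.ext (by simp)
  map_mul' x y := Subtype.ext (by
    show algebraMap ℚ L ((x * y : ↥(GaloisRep.ratLocalizedAt ℓ)) : ℚ) =
      algebraMap ℚ L (x : ℚ) * algebraMap ℚ L (y : ℚ)
    rw [Subring.coe_mul, map_mul])
  map_add' x y := Subtype.ext (by
    show algebraMap ℚ L ((x + y : ↥(GaloisRep.ratLocalizedAt ℓ)) : ℚ) =
      algebraMap ℚ L (x : ℚ) + algebraMap ℚ L (y : ℚ)
    rw [Subring.coe_add, map_add])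

theorem subtype_comp_ratLocToA (hA : (ℓ : L) ∈ A.nonunits) :
    A.subtype.comp (ratLocToA A ℓ hA) =
      (algebraMap ℚ L).comp (GaloisRep.ratLocalizedAt ℓ).subtype :=
  RingHom.ext fun _ => rfl

end RatLoc

/-- The `j`-series over any commutative ring, as a unit series. -/
theorem unitSeries_jNum (R : Type*) [CommRing R] : unitSeries R (-1) jNum = jqModC R := rfl

/-- Data of the modular Gauss valuation at a valuation ring `A`. -/
structure ModData (A : ValuationSubring L) (N : ℕ) where
  n : ℕ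
  hn : 0 < n
  a : ℤ
  E : PowerSeries ℤ
  hE : PowerSeries.constantCoeff E = 1
  χ : (↥A)[X][X]
  monic : χ.Monic
  natDegree_eq : χ.natDegree = n
  root : pev2 (jqModC A) (unitSeries A a E) χ = 0
  hind : IndepUpTo (jqModC (IsLocalRing.ResidueField A))
    (unitSeries (IsLocalRing.ResidueField A) a E) n
  le : ∀ x ∈ laurentBaseChange L (modularFunctionFieldFull N),
    InTL (jqModC L) (unitSeries L a E) x

namespace ModData

variable {A : ValuationSubring L} {N : ℕ} (D : ModData A N)

/-- the formal unit over a ring -/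
def u (R : Type*) [CommRing R] : LaurentSeries R := unitSeries R D.a D.E

omit [Algebra ℚ L] in
theorem coeffMap_jA : coeffMap A.subtype (jqModC A) = jqModC L := coeffMap_jqModC _

theorem coeffMap_uA : coeffMap A.subtype (D.u A) = D.u L := coeffMap_unitSeries _ _ _

omit [Algebra ℚ L] in
theorem red_jA : coeffMap (IsLocalRing.residue A) (jqModC A) = jqModC (IsLocalRing.ResidueField A) :=
  coeffMap_jqModC _

theorem red_uA : coeffMap (IsLocalRing.residue A) (D.u A) = D.u (IsLocalRing.ResidueField A) :=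
  coeffMap_unitSeries _ _ _

theorem hind' : IndepUpTo (coeffMap (IsLocalRing.residue A) (jqModC A))
    (coeffMap (IsLocalRing.residue A) (D.u A)) D.n := by
  rw [red_jA, red_uA]; exact D.hind

include D in
theorem hinj : Function.Injective (pev1 (coeffMap (IsLocalRing.residue A) (jqModC A))) :=
  pev1_injective_of_indep D.hn D.hind'

theorem root' : pev2 (jqModC A) (D.u A) D.χ = 0 := D.root

theorem inTL_of_mem {x : LaurentSeries L}
    (hx : x ∈ laurentBaseChange L (modularFunctionFieldFull N)) :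
    InTL (coeffMap A.subtype (jqModC A)) (coeffMap A.subtype (D.u A)) x := by
  rw [coeffMap_jA, coeffMap_uA]; exact D.le x hx

end ModData

section Exists

variable (A : ValuationSubring L) (ℓ : ℕ) [Fact ℓ.Prime] (N : ℕ) [NeZero N]

theorem coeffEmb_inTL {u : LaurentSeries ℚ} {x : LaurentSeries ℚ} (hx : InT jq u x) :
    InTL (jqModC L) (coeffEmb L u) (coeffEmb L x) := by
  obtain ⟨g, hg, P, hP⟩ := hx
  have hinj : Function.Injective (algebraMap ℚ L) := (algebraMap ℚ L).injective
  refine ⟨g.map (algebraMap ℚ L), ?_, P.map (mapRingHom (algebraMap ℚ L)), ?_⟩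
  · intro h0
    exact hg (Polynomial.map_injective _ hinj (by rw [h0, Polynomial.map_zero]))
  · have hj : coeffEmb L jq = jqModC L := by
      rw [← jqModC_rat]; exact coeffMap_jqModC _
    have h := congrArg (coeffEmb L) hP
    rw [map_mul] at h
    rw [← hj]
    show coeffEmb L x * pev1 (coeffMap (algebraMap ℚ L) jq) (g.map (algebraMap ℚ L)) =
      pev2 (coeffMap (algebraMap ℚ L) jq) (coeffMap (algebraMap ℚ L) u)
        (P.map (mapRingHom (algebraMap ℚ L)))
    rw [← coeffMap_pev1, ← coeffMap_pev2]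
    exact h

omit [NeZero N] [Fact ℓ.Prime] in
/-- The modular Gauss data from the output of the descent (witnesses explicit). -/
theorem exists_modData_of_descent (hA : (ℓ : L) ∈ A.nonunits) {n φ : ℕ} (hφ : 0 < φ)
    (u : LaurentSeries ℚ) (E : PowerSeries ℤ) (hE : PowerSeries.constantCoeff E = 1)
    (hu_eq' : u = unitSeries ℚ (((φ * (n - 1) : ℕ) : ℤ)) E)
    (χQ : ℚ[X][X]) (hχm : χQ.Monic) (hχd : χQ.natDegree = n)
    (hχc : ∀ i, i < n → (χQ.coeff i).natDegree + φ * i ≤ φ * n)
    (hχint : ∀ i k, (χQ.coeff i).coeff k ∈ GaloisRep.ratLocalizedAt ℓ)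
    (hχu : χQ.eval₂ (evJ jq) u = 0)
    (hD3 : modularFunctionFieldFull N ≤
      IntermediateField.adjoin ℚ ({jq, u} : Set (LaurentSeries ℚ))) :
    ∃ D : ModData A N, D.n = n ∧ D.a = (((φ * (n - 1) : ℕ) : ℤ)) ∧ D.E = E := by
  classical
  have hT : ∀ x ∈ IntermediateField.adjoin ℚ ({jq, u} : Set (LaurentSeries ℚ)), InT jq u x :=
    fun x hx => inT_of_mem_adjoin' jq u ordV_jq χQ hχm hχu hx
  set a : ℤ := ((φ * (n - 1) : ℕ) : ℤ) with ha
  set k := IsLocalRing.ResidueField A with hk
  set res : A →+* k := IsLocalRing.residue A with hres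
  set ι₀ := (GaloisRep.ratLocalizedAt ℓ).subtype with hι₀
  set θ := ratLocToA A ℓ hA with hθ
  have hθι : A.subtype.comp θ = (algebraMap ℚ L).comp ι₀ := subtype_comp_ratLocToA A ℓ hA
  have hθinj : Function.Injective θ := by
    intro x y hxy
    have h1 := congrArg A.subtype hxy
    have h2 : (algebraMap ℚ L) (ι₀ x) = (algebraMap ℚ L) (ι₀ y) := h1
    exact Subtype.val_injective ((algebraMap ℚ L).injective h2)
  have hι₀1 : Function.Injective (mapRingHom ι₀) :=
    Polynomial.map_injective ι₀ Subtype.val_injective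
  obtain ⟨χR, hχR⟩ := exists_lift_ratLoc2 ℓ χQ hχint
  have hχRm : χR.Monic := monic_of_injective hι₀1 (by
    have : Polynomial.map (mapRingHom ι₀) χR = (mapRingHom (mapRingHom ι₀)) χR := rfl
    rw [this, hχR]; exact hχm)
  have hχRd : χR.natDegree = n := by
    rw [← hχd, ← hχR]; exact (natDegree_map_eq_of_injective hι₀1 _).symm
  set χA : (↥A)[X][X] := χR.map (mapRingHom θ) with hχA
  have hχAm : χA.Monic := hχRm.map _
  have hχAd : χA.natDegree = n := by rw [← hχRd]; exact hχRm.natDegree_map _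
  -- the root over `A`
  have hmapmap : (χA.map (mapRingHom A.subtype)) = χQ.map (mapRingHom (algebraMap ℚ L)) := by
    rw [hχA, Polynomial.map_map, ← hχR]
    show _ = (Polynomial.map (mapRingHom ι₀) χR).map (mapRingHom (algebraMap ℚ L))
    rw [Polynomial.map_map]
    congr 1
    rw [mapRingHom_comp, mapRingHom_comp, hθι]
  have hrootA : pev2 (jqModC A) (unitSeries A a E) χA = 0 := by
    apply coeffMap_injective (f := A.subtype) Subtype.val_injective
    rw [coeffMap_pev2, map_zero, hmapmap, coeffMap_jqModC, coeffMap_unitSeries]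
    have h1 : coeffMap (algebraMap ℚ L) (pev2 jq u χQ) = 0 := by
      rw [pev2_eq_eval₂_evJ, hχu, map_zero]
    rw [coeffMap_pev2, hu_eq', coeffMap_unitSeries, ← jqModC_rat, coeffMap_jqModC] at h1
    exact h1
  -- reduction
  set jk : LaurentSeries k := jqModC k with hjk
  set uk : LaurentSeries k := unitSeries k a E with huk
  have hordj : ordV k jk = ((-1 : ℤ) : WithTop ℤ) := by
    rw [hjk, ← unitSeries_jNum]
    exact ordV_unitSeries (-1) jNum constantCoeff_jNum
  have hordu : ordV k uk = (a : WithTop ℤ) := ordV_unitSeries a E hE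
  set χk : k[X][X] := χA.map (mapRingHom res) with hχk
  have hχkm : χk.Monic := hχAm.map _
  have hχkd : χk.natDegree = n := by rw [← hχAd]; exact hχAm.natDegree_map _
  have hχkc : ∀ i, i < n → (χk.coeff i).natDegree + φ * i ≤ φ * n := by
    intro i hi
    refine le_trans (Nat.add_le_add_right ?_ _) (hχc i hi)
    rw [hχk, coeff_map, coe_mapRingHom, hχA, coeff_map, coe_mapRingHom]
    calc (((χR.coeff i).map θ).map res).natDegree ≤ ((χR.coeff i).map θ).natDegree :=
          natDegree_map_le
      _ ≤ (χR.coeff i).natDegree := natDegree_map_le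
      _ = ((χR.coeff i).map ι₀).natDegree :=
          (natDegree_map_eq_of_injective Subtype.val_injective _).symm
      _ = (χQ.coeff i).natDegree := by
          rw [← hχR, coe_mapRingHom, coeff_map, coe_mapRingHom]
  have hχku : pev2 jk uk χk = 0 := by
    have h := congrArg (coeffMap res) hrootA
    rw [coeffMap_pev2, map_zero, coeffMap_jqModC, coeffMap_unitSeries] at h
    exact h
  have huk0 : uk ≠ 0 := by
    intro h
    rw [h, AddValuation.map_zero] at hordu
    exact WithTop.top_ne_coe hordu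
  have hind : IndepUpTo jk uk n := by
    intro P hP h0
    exact order_lemma jk uk hordj huk0 hφ χk hχkm hχkd hχkc
      (by rw [← pev2_eq_eval₂_evJ]; exact hχku) (by rw [hordu]) P hP
      (by rw [← pev2_eq_eval₂_evJ]; exact h0)
  have hn : 0 < n := by
    rcases Nat.eq_zero_or_pos n with h | h
    · exfalso
      rw [h] at hχkd
      have h1 : χk = 1 := eq_one_of_monic_natDegree_zero hχkm hχkd
      rw [h1, map_one] at hχku
      exact one_ne_zero hχku
    · exact h
  -- `F_L ⊆ L(j)[u]`
  have hinjk : Function.Injective (pev1 jk) := pev1_injective_of_indep hn hind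
  have hv := vTriple_valuationSubring A
  have hinjL : Function.Injective (pev1 (jqModC L)) := by
    have h := pev1_coeffMap_injective (jR := jqModC A) hv (by rw [coeffMap_jqModC]; exact hinjk)
    rwa [coeffMap_jqModC] at h
  have hχLu : pev2 (jqModC L) (unitSeries L a E) (χA.map (mapRingHom A.subtype)) = 0 := by
    have h := congrArg (coeffMap A.subtype) hrootA
    rw [coeffMap_pev2, map_zero, coeffMap_jqModC, coeffMap_unitSeries] at h
    exact h
  have hle : ∀ x ∈ laurentBaseChange L (modularFunctionFieldFull N),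
      InTL (jqModC L) (unitSeries L a E) x := by
    intro x hx
    have huL : coeffEmb L u = unitSeries L a E := by
      rw [hu_eq']; exact coeffMap_unitSeries _ _ _
    induction hx using IntermediateField.adjoin_induction with
    | mem x hx =>
      obtain ⟨y, hy, rfl⟩ := hx
      have := coeffEmb_inTL (L := L) (hT y (hD3 hy))
      rwa [huL] at this
    | algebraMap c => exact inTL_algebraMap c
    | add x y _ _ hx hy => exact inTL_add hx hy
    | inv x _ hx => exact inTL_inv hinjL _ (hχAm.map _) hχLu hx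
    | mul x y _ _ hx hy => exact inTL_mul hx hy
  exact ⟨{ n := n, hn := hn, a := a, E := E, hE := hE, χ := χA, monic := hχAm,
           natDegree_eq := hχAd, root := hrootA, hind := hind, le := hle }, rfl, rfl, rfl⟩

/-- **(G7)** the modular Gauss data exist for every valuation ring over `ℓ ∤ N`. -/
theorem nonempty_modData (hA : (ℓ : L) ∈ A.nonunits) (hℓN : ¬ ℓ ∣ N) :
    Nonempty (ModData A N) := by
  obtain ⟨n, φ, u, χQ, hφ, hu, hχm, hχd, hχc, hχint, hχu, hAd⟩ :=
    descent_main N ℓ hℓN (thmA N)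
  have hD3 := modularFunctionFieldFull_le_adjoin' N hφ u hu χQ hχm hχd hχc hχu hAd
  obtain ⟨E, hE, hu_eq⟩ := hu
  obtain ⟨D, -⟩ := exists_modData_of_descent A ℓ N hA hφ u E hE hu_eq χQ hχm hχd hχc hχint hχu hD3
  exact ⟨D⟩

end Exists

end

end Fermat.Agent.GaussVal
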